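import Fermat.Agent.ModField.Semistable.GluedPoints

/-!
# Joint reductions of Riemann-Roch spaces on a semistable special fibre

For a divisor off the tubes whose specialisation is large, `L(E)` has a basis whose joint
reductions form a basis of the glued functions with poles bounded by the specialisation.
-/

set_option autoImplicit false
set_option linter.style.haveILetI false
set_option linter.unusedSectionVars false

noncomputable section

namespace FA.ModField.SemiFibre

open AlgebraicCurve FA.Curve FA.CurveRed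

variable {K F k : Type*} [Field K] [Field F] [Algebra K F] [Field k] {ι : Type*} [Fintype ι]
  {Fk : ι → Type*} [∀ i, Field (Fk i)] [∀ i, Algebra k (Fk i)] {A : ValuationSubring K}
  {β σ : Type*} [Fintype β] [Fintype σ] (X : SemiFibre K F k Fk A β σ)

/-- Joint reduction on all components. -/
def JRed (f : F) (H : ∀ i, Fk i) : Prop := ∀ i, (X.C i).Red f (H i)

variable {X}

theorem JRed.add {f g : F} {H G : ∀ i, Fk i} (h : X.JRed f H) (h' : X.JRed g G) :
    X.JRed (f + g) (H + G) := fun i => (h i).add (h' i)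

theorem JRed.sub {f g : F} {H G : ∀ i, Fk i} (h : X.JRed f H) (h' : X.JRed g G) :
    X.JRed (f - g) (H - G) := fun i => (h i).sub (h' i)

theorem JRed.neg {f : F} {H : ∀ i, Fk i} (h : X.JRed f H) : X.JRed (-f) (-H) := fun i => (h i).neg

theorem JRed.mul {f g : F} {H G : ∀ i, Fk i} (h : X.JRed f H) (h' : X.JRed g G) :
    X.JRed (f * g) (H * G) := fun i => (h i).mul (h' i)

theorem jred_zero : X.JRed 0 0 := fun _ => ConstRed.red_zero

theorem JRed.smul {f : F} {H : ∀ i, Fk i} (h : X.JRed f H) {c : K} (hc : c ∈ A) :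
    X.JRed (c • f) (X.π ⟨c, hc⟩ • H) := fun i => by
  rw [Pi.smul_apply, Algebra.smul_def, Algebra.smul_def]
  exact (X.red_const i ⟨c, hc⟩).mul (h i)

theorem jred_sum {μ : Type*} {t : Finset μ} {f : μ → F} {H : μ → ∀ i, Fk i}
    (h : ∀ m ∈ t, X.JRed (f m) (H m)) : X.JRed (∑ m ∈ t, f m) (∑ m ∈ t, H m) := fun i => by
  rw [Finset.sum_apply]
  exact ConstRed.red_sum fun m hm => h m hm i

theorem JRed.unique {f : F} {H H' : ∀ i, Fk i} (h : X.JRed f H) (h' : X.JRed f H') : H = H' :=
  funext fun i => (h i).unique (h' i)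

section Lifts

variable [Nonempty ι] {μ : Type*} [Fintype μ] {e : μ → F} {eb : μ → ∀ i, Fk i}
  (he : ∀ m, X.JRed (e m) (eb m)) (hli : LinearIndependent k eb)

include he hli

theorem exists_max_jred (c : μ → K) (hc : ∃ m, c m ≠ 0) :
    ∃ (j : μ) (H : ∀ i, Fk i), c j ≠ 0 ∧ (∀ m, A.valuation (c m) ≤ A.valuation (c j)) ∧ H ≠ 0 ∧
      X.JRed ((c j)⁻¹ • ∑ m, c m • e m) H := by
  classical
  obtain ⟨j, hj0, hj⟩ := ConstRed.exists_max_coeff A c hc
  refine ⟨j, ∑ m, X.π ⟨_, hj m⟩ • eb m, hj0, fun m => ?_, fun h0 => ?_, ?_⟩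
  · have := (A.valuation_le_one_iff _).2 (hj m)
    rwa [map_div₀, div_le_one₀ (A.valuation.pos_iff.2 hj0)] at this
  · have h1 := Fintype.linearIndependent_iff.1 hli _ h0 j
    rw [X.π_eq_zero] at h1
    simp [div_self hj0] at h1
  · rw [Finset.smul_sum]
    refine jred_sum fun m _ => ?_
    rw [smul_smul, ← div_eq_inv_mul]
    exact (he m).smul (hj m)

theorem linearIndependent_jred : LinearIndependent K e := by
  rw [Fintype.linearIndependent_iff]
  intro c hc
  by_contra hne
  push Not at hne
  obtain ⟨j, H, -, -, hH, hred⟩ := exists_max_jred he hli c hne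
  rw [hc, smul_zero] at hred
  exact hH (hred.unique jred_zero)

theorem coord_mem_jred (c : μ → K) {f : F} {H : ∀ i, Fk i} (hf : f = ∑ m, c m • e m)
    (hfr : X.JRed f H) (m : μ) : c m ∈ A := by
  rcases eq_or_ne (c m) 0 with h | h
  · rw [h]; exact zero_mem A
  obtain ⟨j, H', hj0, hj, hH', hred⟩ := exists_max_jred he hli c ⟨m, h⟩
  refine (A.valuation_le_one_iff _).1 ((hj m).trans ?_)
  by_contra hgt
  rw [not_le] at hgt
  have hinv : (c j)⁻¹ ∈ A := (A.valuation_le_one_iff _).1 (by
    rw [map_inv₀]; exact inv_le_one_of_one_le₀ hgt.le)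
  have h2 := hfr.smul hinv
  rw [← hf] at hred
  have h0 : X.π ⟨(c j)⁻¹, hinv⟩ = 0 := by
    rw [X.π_eq_zero]
    show A.valuation (c j)⁻¹ < 1
    rw [map_inv₀]
    exact inv_lt_one_of_one_lt₀ hgt
  exact hH' ((hred.unique h2).trans (by rw [h0, zero_smul]))

theorem residue_coord_jred (c : μ → K) (hc : ∀ m, c m ∈ A) {f : F} {H : ∀ i, Fk i}
    (hf : f = ∑ m, c m • e m) (hfr : X.JRed f H) : H = ∑ m, X.π ⟨c m, hc m⟩ • eb m :=
  hfr.unique (hf ▸ jred_sum fun m _ => (he m).smul (hc m))

end Lifts

variable (X) [IsAlgClosed K] [IsAlgClosed k] [Nonempty ι] (hF : IsFunctionField K F)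
  (hk : ∀ i, IsFunctionField k (Fk i))

include hF

/-- Reductions of functions of `L(E)` are glued. -/
theorem jred_mem_gluedSpace {E : Divisor K F} (hE : X.Clean E) {f : F}
    (hf : f ∈ riemannRochSpace E) {H : ∀ i, Fk i} (h : X.JRed f H) :
    H ∈ X.gluedSpace (X.push E) := by
  have ht : X.trivTwist.TRed f H := fun i => ⟨H i, by simpa [trivTwist] using h i, by
    simp [trivTwist]⟩
  have hf' : f ∈ riemannRochSpace ((X.trivTwist.D : Divisor K F) + E) := by
    simpa [trivTwist] using hf
  obtain ⟨v, hv⟩ := ht.glue X.trivTwist hE hf'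
  refine ⟨fun i => ht.mem hF X.trivTwist one_ne_zero hE hf' i, fun b => v (X.pt b),
    X.mem_gluedVals.2 ⟨v, fun _ => rfl⟩, fun b => ?_⟩
  simpa using hv b

include hk

/-- The two dimensions for a large divisor off the tubes. -/
theorem ell_eq_finrank {E : Divisor K F} (hE : X.Clean E) (hbig : IsBig X.br (X.push E)) :
    ell E = Divisor.degree E + 1 - genus K F ∧
      (Module.finrank k (X.gluedSpace (X.push E)) : ℤ) = Divisor.degree E + 1 - genus K F := by
  have h1 := X.trivTwist.ell_le_finrank hF hk one_ne_zero hE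
  rw [X.space_trivTwist hF hk hE hbig] at h1
  have h2 := riemann_inequality hF E
  have hD : (X.trivTwist.D : Divisor K F) = 0 := rfl
  rw [hD, zero_add] at h1
  have h3 := finrank_evalSpace X.br hk X.br_inj hbig X.gluedVals
  rw [X.finrank_gluedVals] at h3
  have h4 : ∑ i, ell (X.push E i) =
      Divisor.degree E + Fintype.card ι - ∑ i, (genus k (Fk i) : ℤ) := by
    rw [Finset.sum_congr rfl fun i _ => (hbig.2 i).1, Finset.sum_sub_distrib,
      Finset.sum_add_distrib, X.degree_push hF hk E hE]
    simp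
  have h5 := X.genus_le
  rw [gluedSpace] at h1 ⊢
  omega

omit hF [IsAlgClosed K] in
theorem finite_gluedSpace (T : ∀ i, Divisor k (Fk i)) : Module.Finite k (X.gluedSpace T) :=
  finite_evalSpace X.br hk T X.gluedVals

/-- A basis with a basis of glued functions as joint reductions. -/
theorem exists_jbasis {E : Divisor K F} (hE : X.Clean E) (hbig : IsBig X.br (X.push E)) :
    ∃ (n : ℕ) (z : Fin n → F) (zb : Fin n → ∀ i, Fk i), (∀ m, X.JRed (z m) (zb m)) ∧
      LinearIndependent k zb ∧ Submodule.span K (Set.range z) = riemannRochSpace E ∧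
      Submodule.span k (Set.range zb) = X.gluedSpace (X.push E) := by
  haveI := X.finite_gluedSpace hk (X.push E)
  haveI := finite_riemannRochSpace hF E
  let b := Module.finBasis k (X.gluedSpace (X.push E))
  have hb := fun m => X.exists_lift hF hk hE hbig (b m).2
  choose z hz hzr using hb
  have hli : LinearIndependent k fun m => ((b m : X.gluedSpace (X.push E)) : ∀ i, Fk i) :=
    b.linearIndependent.map' (X.gluedSpace _).subtype (Submodule.ker_subtype _)
  refine ⟨_, z, _, hzr, hli, ?_, ?_⟩
  · refine Submodule.eq_of_le_of_finrank_le (Submodule.span_le.2 (Set.range_subset_iff.2 hz)) ?_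
    rw [finrank_span_eq_card (linearIndependent_jred hzr hli), Fintype.card_fin]
    obtain ⟨h1, h2⟩ := X.ell_eq_finrank hF hk hE hbig
    rw [ell] at h1
    omega
  · rw [show (fun m => ((b m : X.gluedSpace (X.push E)) : ∀ i, Fk i)) =
      (X.gluedSpace (X.push E)).subtype ∘ b from rfl, Set.range_comp, Submodule.span_image,
      b.span_eq, Submodule.map_top, Submodule.range_subtype]

omit hF [IsAlgClosed K] in
/-- A glued function with the exact pole order at a smooth point. -/
theorem exists_exact {T : ∀ i, Divisor k (Fk i)} {i : ι} {Q : Place k (Fk i)}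
    (hQ : ∀ b, X.br b ≠ ⟨i, Q⟩) (hT : IsBig X.br T) [DecidableEq ι]
    (hT' : IsBig X.br (Function.update T i (T i - Finsupp.single Q 1))) :
    ∃ H ∈ X.gluedSpace T, H i ≠ 0 ∧ Q.ord (H i) = -T i Q := by
  classical
  set T' := Function.update T i (T i - Finsupp.single Q 1) with hT'def
  haveI := X.finite_gluedSpace hk T'
  have h1 := finrank_evalSpace X.br hk X.br_inj hT X.gluedVals
  have h2 := finrank_evalSpace X.br hk X.br_inj hT' X.gluedVals
  have hell : ∑ j, ell (T j) = ∑ j, ell (T' j) + 1 := by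
    rw [← Finset.add_sum_erase _ _ (Finset.mem_univ i), ← Finset.add_sum_erase _ _
      (Finset.mem_univ i), Finset.sum_congr rfl (fun j hj => by
        rw [show T j = T' j from (Function.update_of_ne (Finset.ne_of_mem_erase hj) _ _).symm]),
      (hT.2 i).1, (hT'.2 i).1, show T' i = T i - Finsupp.single Q 1 from Function.update_self ..,
      map_sub, Divisor.degree_single, (hk i).deg_eq_one]
    push_cast
    ring
  by_contra hno
  push Not at hno
  have hle : X.gluedSpace T ≤ X.gluedSpace T' := by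
    intro H hH
    obtain ⟨hmem, hv⟩ := id hH
    refine ⟨fun j => ?_, hv⟩
    rw [FA.Curve.mem_riemannRochSpace]
    intro Q'
    have h := FA.Curve.mem_riemannRochSpace.1 (hmem j) Q'
    rcases eq_or_ne j i with rfl | hj
    · rw [hT'def, Function.update_self, Finsupp.sub_apply]
      rcases eq_or_ne Q' Q with rfl | hQ'
      · rcases h with h | h
        · exact Or.inl h
        rcases eq_or_ne (H j) 0 with h0 | h0
        · exact Or.inl h0
        refine Or.inr ?_
        have := hno H hH h0
        rw [Finsupp.single_eq_same]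
        omega
      · rwa [Finsupp.single_eq_of_ne hQ', sub_zero]
    · rwa [hT'def, Function.update_of_ne hj]
  haveI := finite_evalSpace X.br hk T' X.gluedVals
  have h5 : Module.finrank k (evalSpace X.br T X.gluedVals) ≤
      Module.finrank k (evalSpace X.br T' X.gluedVals) := Submodule.finrank_mono hle
  omega

omit hF [IsAlgClosed K] in
/-- A glued function with the value `1` at all branches. -/
theorem exists_ones {T : ∀ i, Divisor k (Fk i)} (hT : IsBig X.br T)
    (hbr : ∀ i, ∃ b, (X.br b).1 = i) :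
    ∃ H ∈ X.gluedSpace T, (∀ b, HasValue (X.br b).2 (H (X.br b).1) 1) ∧ ∀ i, H i ≠ 0 := by
  obtain ⟨r, hr⟩ := evalMap_surjective X.br hk X.br_inj hT (fun _ => 1)
  have hv : ∀ b, HasValue (X.br b).2 ((r : ∀ i, Fk i) (X.br b).1) 1 := fun b => by
    have := evalMap_spec X.br hk hT.1 r b
    rwa [hr] at this
  refine ⟨r, (mem_evalSpace_iff X.br hk hT.1 X.gluedVals r).2
    (hr ▸ X.mem_gluedVals.2 ⟨fun _ => 1, fun _ => rfl⟩), hv, fun i h0 => ?_⟩
  obtain ⟨b, rfl⟩ := hbr i
  have := hv b
  rw [h0] at this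
  exact one_ne_zero (this.unique (by simpa using hasValue_algebraMap (X.br b).2 (0 : k)))

end FA.ModField.SemiFibre
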