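import Fermat.Agent.ModField.Semistable.Formal.Fixed
import Fermat.Agent.Mazur.Unramified

/-!
# Fixed places from a fixed separating function

If a fixed function reduces on a component to a separating function, then over all but finitely
many points of the component exactly one place takes a given fixed value: it is fixed.
-/

set_option autoImplicit false
set_option linter.style.haveILetI false
set_option linter.unusedSectionVars false

noncomputable section

namespace FA.ModField.SemiFibre

open AlgebraicCurve FA.Curve FA.CurveRed IntermediateField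

variable {K F k : Type*} [Field K] [Field F] [Algebra K F] [Field k] {ι : Type*} [Fintype ι]
  {Fk : ι → Type*} [∀ i, Field (Fk i)] [∀ i, Algebra k (Fk i)] {A : ValuationSubring K}
  {β σ : Type*} [Fintype β] [Fintype σ] {X : SemiFibre K F k Fk A β σ}

/-- With at least two components every component meets another one. -/
theorem exists_branch [Nontrivial ι] (i : ι) : ∃ b, (X.br b).1 = i := by
  classical
  by_contra h
  push Not at h
  obtain ⟨j, hj⟩ := exists_ne i
  have h1 := X.connected (fun l => if l = i then (1 : k) else 0)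
    (fun b b' _ => by simp [h b, h b']) i j
  simp [hj] at h1

variable [IsAlgClosed K] [IsAlgClosed k] [Nonempty ι] (hF : IsFunctionField K F)
  (hk : ∀ i, IsFunctionField k (Fk i))

include hF hk

/-- **Fixed places from a fixed separating function.** -/
theorem infinite_fixGood {T : Set (SemilinearAut K F)} (hT : ∀ τ ∈ T, X.Stable τ) (i : ι)
    {t : F} {r : Fk i} (ht : (X.C i).Red t r) (hr : Transcendental k r)
    [Algebra.IsSeparable k⟮r⟯ (Fk i)] (hTt : ∀ τ ∈ T, τ • t = t)
    (hres : ∀ b : k, ∃ a : A, X.π a = b ∧ ∀ τ ∈ T, SemilinearAut.baseAut τ (a : K) = a) :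
    (X.fixGood T i).Infinite := by
  classical
  obtain ⟨B, hB, hgood⟩ := FA.Mazur.exists_finite_ord_sub_eq_one (hk i) hr
  let sm : Place k (Fk i) → Σ i, Place k (Fk i) := fun Q => ⟨i, Q⟩
  have hsm : Function.Injective sm := fun _ _ h => eq_of_heq (Sigma.mk.inj h).2
  have hpoles : {x : Σ i, Place k (Fk i) | ∃ P : Place K F, P.ord t ≠ 0 ∧ X.spl P = some x}.Finite := by
    refine (((FA.Curve.finite_support hF t).image X.spl).preimage
      (Option.some_injective _).injOn).subset ?_
    rintro x ⟨P, hP, hx⟩
    exact ⟨P, hP, hx⟩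
  have hfin : (B ∪ sm ⁻¹' (Set.range X.br) ∪ sm ⁻¹'
      {x | ∃ P : Place K F, P.ord t ≠ 0 ∧ X.spl P = some x}).Finite :=
    (hB.union ((Set.finite_range X.br).preimage hsm.injOn)).union (hpoles.preimage hsm.injOn)
  haveI := infinite_places (hk i)
  refine Set.Infinite.mono ?_ hfin.infinite_compl
  intro Q hQ
  simp only [Set.mem_compl_iff, Set.mem_union, Set.mem_preimage, Set.mem_range, Set.mem_setOf_eq,
    not_or, not_exists] at hQ
  obtain ⟨⟨hQB, hQbr⟩, hQP⟩ := hQ
  obtain ⟨c, hc, hord⟩ := hgood Q hQB
  obtain ⟨a, rfl, hafix⟩ := hres c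
  refine ⟨hQbr, ?_⟩
  set f := t - algebraMap K F (a : K)
  have hfred : (X.C i).Red f (r - algebraMap k (Fk i) (X.π a)) := ht.sub (X.red_const i a)
  have hr0 : r - algebraMap k (Fk i) (X.π a) ≠ 0 := fun h => by
    rw [h, Q.ord_zero] at hord; omega
  have hnp : ∀ P, X.spl P = some (sm Q) → 0 ≤ P.ord f := fun P hP => by
    have h0 : P.ord t = 0 := by
      by_contra hne
      exact hQP P ⟨hne, hP⟩
    exact (atLeast_iff (hfred.ne_zero hr0)).1
      (AtLeast.sub (Or.inr h0.ge) (atLeast_algebraMap _))
  have hsum : ∑ P ∈ (divOf hF f).support,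
      (if X.spl P = some (sm Q) then divOf hF f P else 0) = 1 := by
    rw [← mapDomain_spl, ← push_apply, X.push_divOf hF hfred hr0 hQbr, hord]
  rw [← Finset.sum_filter] at hsum
  obtain ⟨P, hP, hP0⟩ := Finset.exists_ne_zero_of_sum_ne_zero (hsum.symm ▸ one_ne_zero)
  rw [Finset.mem_filter] at hP
  refine ⟨P, hP.2, fun τ hτ => ?_⟩
  have hτf : τ • f = f := by
    simp only [f, smul_sub, SemilinearAut.smul_algebraMap, hTt τ hτ, hafix τ hτ]
  have hspl : X.spl (τ • P) = some (sm Q) := (hT τ hτ).spl_smul hF hk hP.2
  have hordτ : divOf hF f (τ • P) = divOf hF f P := by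
    rw [divOf_apply, divOf_apply]
    conv_lhs => rw [← hτf]
    exact SemilinearAut.ord_smul τ P f
  by_contra hne
  have hnn : ∀ P ∈ (divOf hF f).support.filter fun P => X.spl P = some (sm Q),
      1 ≤ divOf hF f P := fun P hP => by
    rw [Finset.mem_filter, Finsupp.mem_support_iff, divOf_apply] at hP
    rw [divOf_apply]
    have := hnp P hP.2
    omega
  have h2 := Finset.sum_le_sum_of_subset_of_nonneg (f := fun P => divOf hF f P)
    (show ({τ • P, P} : Finset _) ⊆
        (divOf hF f).support.filter fun P => X.spl P = some (sm Q) by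
      intro z hz
      rcases Finset.mem_insert.1 hz with rfl | hz
      · exact Finset.mem_filter.2 ⟨Finsupp.mem_support_iff.2 (hordτ ▸ hP0), hspl⟩
      · rw [Finset.mem_singleton.1 hz]; exact Finset.mem_filter.2 hP)
    fun z hz _ => zero_le_one.trans (hnn z hz)
  rw [Finset.sum_pair hne, hsum, hordτ] at h2
  have := hnn P (Finset.mem_filter.2 hP)
  omega

end FA.ModField.SemiFibre
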