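import Fermat.Agent.ModField.Semistable.Formal.Modular
import Fermat.Agent.ModField.Semistable.RedPoints
import Fermat.Agent.ModField.Semistable.FrobRelation
import Fermat.Agent.ModField.Semistable.NewformFrobenius
import Fermat.Agent.LocalDef.Transfer
import Fermat.Agent.JTorsion.LatMod

/-!
# The connected part of the torsion of `J₀(M q)` at `q`

The classes killed by both reductions are stable under the decomposition group, contain all
displacements by inertia and have a connected model.
-/

set_option autoImplicit false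
set_option linter.style.haveILetI false
set_option linter.unusedSectionVars false
set_option synthInstance.maxHeartbeats 200000
set_option maxHeartbeats 800000

noncomputable section

namespace FA.ModField

open ModularCurve AlgebraicCurve FA.Curve FA.CurveRed FA.CurveRed.Modular FA.LocalDef FA.JTorsion
  FA.Level

local notation "Qb" => AlgebraicClosure ℚ
local notation "GQ" => AlgebraicClosure ℚ ≃ₐ[ℚ] AlgebraicClosure ℚ

/-- Elements of the decomposition group induce endomorphisms of the residue field. -/
theorem exists_inducesOn_decomposition {A : ValuationSubring Qb} {δ : GQ}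
    (hδ : δ ∈ A.decompositionSubgroup ℚ) :
    ∃ φ, InducesOn Qb (IsLocalRing.residue A) δ φ :=
  ⟨MulSemiringAction.toRingHom _ (IsLocalRing.ResidueField A)
    (⟨δ, hδ⟩ : A.decompositionSubgroup ℚ), fun a =>
    ⟨(⟨δ, hδ⟩ : A.decompositionSubgroup ℚ) • a, rfl,
      by rw [IsLocalRing.ResidueField.residue_smul]; rfl⟩⟩

variable {M : ℕ} [NeZero M] {q : ℕ} [hq : Fact q.Prime] [hq0 : NeZero q] [Algebra Qb ℂ]
  {A : ValuationSubring Qb}
  [IsAlgClosed (IsLocalRing.ResidueField A)] [CharP (IsLocalRing.ResidueField A) q]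
  {hπ0 : ∀ a : A, IsLocalRing.residue A a = 0 ↔ A.valuation a < 1} {hqM : ¬ q ∣ M}
  {harch : ∀ c : Qb, c ≠ 0 → ∃ m : ℕ, A.valuation ((q : Qb) ^ m) < A.valuation c}

/-- The torsion class of an element of the lattice modulo `n`. -/
def torsMod (N : ℕ) [NeZero N] (S : Set ℕ) (n : ℕ) [NeZero n] :
    ModN N S n →+ Pic0.torsion Qb (levelField N Qb) n :=
  (toTors N S n).codRestrict _ fun z =>
    Pic0.mem_torsion.2 ((natCast_zsmul _ _).trans (nsmul_toTors N S n z))

theorem torsMod_galMod (N : ℕ) [NeZero N] (S : Set ℕ) (n : ℕ) [NeZero n] (σ : GQ)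
    (z : ModN N S n) :
    torsMod N S n (galMod N S n σ z) = galAut N Qb σ • torsMod N S n z := by
  refine Subtype.ext ?_
  rw [SemilinearAut.coe_torsion_smul]
  exact (toTors_galMod N S n σ z).trans (galois_smul_pic0_def _ σ _)

variable (D : FibreData M q A (IsLocalRing.residue A) IsLocalRing.residue_surjective hπ0 hqM harch)

/-- Galois elements in the decomposition group preserve the classes killed by both reductions. -/
theorem FibreData.smul_mem_toricKer_decomposition (n : ℕ) {δ : GQ}
    (hδ : δ ∈ A.decompositionSubgroup ℚ) {x : Pic0.torsion Qb (levelField (M * q) Qb) n}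
    (hx : x ∈ D.X.toricKer (isFunctionField_level Qb (M * q)) n) :
    galAut (M * q) Qb δ • x ∈ D.X.toricKer (isFunctionField_level Qb (M * q)) n := by
  obtain ⟨φ, hφ⟩ := exists_inducesOn_decomposition hδ
  rw [SemiFibre.mem_toricKer] at hx ⊢
  intro i
  rw [redTor_smul n (isFunctionField_level Qb (M * q)) (D.X.scaled i) (θ := fullMap M φ) ?_
    (fullMap_const M φ) x, hx i, map_zero]
  fin_cases i
  · show IntertwinesRed (D.X.C 0) _ _
    rw [D.C_inf]
    exact intertwines_cInf M q A _ _ hπ0 hqM harch hφ
  · show IntertwinesRed (D.X.C 1) _ _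
    rw [D.C_zero]
    exact intertwines_cZero M q A _ _ hπ0 hqM harch hφ

/-- Inertia moves classes by classes killed by both reductions. -/
theorem FibreData.smul_sub_mem_toricKer_inertia (n : ℕ) {σ : GQ}
    (hσ : σ ∈ A.inertiaSubgroupIn ℚ) (x : Pic0.torsion Qb (levelField (M * q) Qb) n) :
    galAut (M * q) Qb σ • x - x ∈ D.X.toricKer (isFunctionField_level Qb (M * q)) n := by
  obtain ⟨h1, h2⟩ := redTor_gal_inertia M q A (IsLocalRing.residue A)
    IsLocalRing.residue_surjective hπ0 hqM harch n (inducesOn_inertia hσ) x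
  rw [SemiFibre.mem_toricKer]
  intro i
  rw [map_sub]
  refine (sub_eq_zero (G := RedTarget (IsLocalRing.ResidueField A)
    (modularFunctionFieldFullC (IsLocalRing.ResidueField A) M) n)).2 ?_
  fin_cases i
  · exact (redTor_congr_red D.C_inf _ _ _ (scaled_cInf M q A _ _ hπ0 hqM harch) _).trans
      (h1.trans (redTor_congr_red D.C_inf _ _ _ (scaled_cInf M q A _ _ hπ0 hqM harch) _).symm)
  · exact (redTor_congr_red D.C_zero _ _ _ (scaled_cZero M q A _ _ hπ0 hqM harch) _).trans
      (h2.trans (redTor_congr_red D.C_zero _ _ _ (scaled_cZero M q A _ _ hπ0 hqM harch) _).symm)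

include D in
/-- **The lattice modulo `qᵉ` has a connected part.** -/
theorem FibreData.hasConnPart (hA : A.LiesOverPrime q) (S : Set ℕ) (e : ℕ) [NeZero (q ^ e)]
    [Fintype (ModN (M * q) S (q ^ e))] :
    HasConnPart A (ModN (M * q) S (q ^ e)) fun σ x => galMod (M * q) S (q ^ e) σ x := by
  classical
  set W := (D.X.toricKer (isFunctionField_level Qb (M * q)) (q ^ e)).comap
    (torsMod (M * q) S (q ^ e))
  letI : Fintype W := Fintype.ofFinite W
  refine HasPart.mk' W (fun δ hδ x hx => ?_) (fun σ hσ x => ?_) fun actW hact => ?_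
  · show torsMod (M * q) S (q ^ e) (galMod (M * q) S (q ^ e) δ x) ∈
      D.X.toricKer (isFunctionField_level Qb (M * q)) (q ^ e)
    rw [torsMod_galMod]
    exact D.smul_mem_toricKer_decomposition _ hδ hx
  · show torsMod (M * q) S (q ^ e) (galMod (M * q) S (q ^ e) σ x - x) ∈
      D.X.toricKer (isFunctionField_level Qb (M * q)) (q ^ e)
    rw [map_sub, torsMod_galMod]
    exact D.smul_sub_mem_toricKer_inertia _ hσ _
  · refine D.hasConnModel hA e ((toTors (M * q) S (q ^ e)).comp W.subtype)
      (fun x y h => Subtype.ext (toTors_injective _ S _ h)) (fun x => ⟨⟨_, x.2⟩, rfl⟩) actW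
      fun σ hσ x => ?_
    show toTors _ S _ (actW σ x : ModN (M * q) S (q ^ e)) = σ • toTors _ S _ x.1
    rw [hact σ hσ, toTors_galMod]

end FA.ModField
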