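import Fermat.Agent.ModField.Semistable.Formal.Glued

/-!
# Coordinates of disc divisors

For a fixed large divisor `B` with a fixed basis of `L(B)`, an effective divisor `E` with one
place in each disc of a set `S` of smooth points is described by the coordinates of the basis
modulo `L(B - E)`: integral, with residues depending only on `S`.
-/

set_option autoImplicit false
set_option linter.style.haveILetI false
set_option linter.unusedSectionVars false

noncomputable section

namespace FA.ModField.SemiFibre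

open AlgebraicCurve FA.Curve FA.CurveRed

variable {K F k : Type*} [Field K] [Field F] [Algebra K F] [Field k] {ι : Type*} [Fintype ι]
  {Fk : ι → Type*} [∀ i, Field (Fk i)] [∀ i, Algebra k (Fk i)] {A : ValuationSubring K}
  {β σ : Type*} [Fintype β] [Fintype σ] (X : SemiFibre K F k Fk A β σ)

theorem push_neg (D : Divisor K F) (i : ι) : X.push (-D) i = -X.push D i := by
  refine eq_neg_of_add_eq_zero_left ?_
  rw [← push_add, neg_add_cancel]
  ext Q
  simp [push_apply]

theorem push_sub' (D E : Divisor K F) (i : ι) : X.push (D - E) i = X.push D i - X.push E i := by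
  rw [sub_eq_add_neg, push_add, push_neg, sub_eq_add_neg]

variable {X} in
theorem Clean.sub {D E : Divisor K F} (hD : X.Clean D) (hE : X.Clean E) : X.Clean (D - E) :=
  fun P hP => by rw [Finsupp.sub_apply, hD P hP, hE P hP, sub_zero]

/-- The sum of one place in each disc of `S`. -/
def DiscDiv (S : Finset (Σ i, Place k (Fk i))) (E : Divisor K F) : Prop :=
  ∃ P : S → Place K F, (∀ Q, X.spl (P Q) = some Q.1) ∧ E = ∑ Q, Finsupp.single (P Q) 1

/-- No point of `D` lies over `S`. -/
def Off (S : Finset (Σ i, Place k (Fk i))) (D : Divisor K F) : Prop :=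
  ∀ P x, x ∈ S → X.spl P = some x → D P = 0

section DiscDiv

variable {X} {S : Finset (Σ i, Place k (Fk i))} {E : Divisor K F} (hE : X.DiscDiv S E)

include hE

theorem DiscDiv.nonneg : 0 ≤ E := by
  obtain ⟨P, -, rfl⟩ := hE
  exact Finset.sum_nonneg fun Q _ => Finsupp.single_nonneg.2 zero_le_one

theorem DiscDiv.clean : X.Clean E := fun R hR => by
  obtain ⟨P, hP, rfl⟩ := hE
  rw [Finset.sum_apply']
  exact Finset.sum_eq_zero fun Q _ => X.clean_single (hP Q) _ R hR

theorem DiscDiv.eq_zero {R : Place K F} (h : ∀ x ∈ S, X.spl R ≠ some x) : E R = 0 := by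
  obtain ⟨P, hP, rfl⟩ := hE
  rw [Finset.sum_apply']
  exact Finset.sum_eq_zero fun Q _ => Finsupp.single_eq_of_ne fun he => h Q Q.2 (he ▸ hP Q)

theorem DiscDiv.off {T : Finset (Σ i, Place k (Fk i))} (hd : Disjoint S T) : X.Off T E :=
  fun _ _ hxT hRx => hE.eq_zero fun y hy hRy =>
    Finset.disjoint_left.1 hd hy (Option.some_injective _ (hRy.symm.trans hRx) ▸ hxT)

theorem DiscDiv.push_eq [IsAlgClosed k] : X.push E = compDiv S := by
  classical
  obtain ⟨P, hP, rfl⟩ := hE
  refine funext fun i => Finsupp.ext fun Q => ?_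
  rw [push_apply, compDiv_apply, Finsupp.mapDomain_finsetSum, Finset.sum_apply']
  simp only [Finsupp.mapDomain_single, hP, Finsupp.single_apply, Option.some_inj]
  rw [Finset.sum_coe_sort S fun x => if x = (⟨i, Q⟩ : Σ i, Place k (Fk i)) then (1 : ℤ) else 0,
    Finset.sum_ite_eq']

theorem DiscDiv.degree [IsAlgClosed K] (hF : IsFunctionField K F) :
    Divisor.degree E = S.card := by
  obtain ⟨P, -, rfl⟩ := hE
  simp [hF.deg_eq_one]

end DiscDiv

variable [IsAlgClosed K] [IsAlgClosed k] [Nonempty ι] (hF : IsFunctionField K F)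
  (hk : ∀ i, IsFunctionField k (Fk i))

/-- A large divisor off the tubes with a basis of its space and their joint reductions. -/
structure Ambient where
  /-- the threshold -/
  N : ℕ
  big : ∀ T : ∀ i, Divisor k (Fk i), Avoids X.br T → (∀ i, (N : ℤ) ≤ Divisor.degree (T i)) →
    IsBig X.br T
  /-- the divisor -/
  B : Divisor K F
  clean : X.Clean B
  deg_le : ∀ i, (N : ℤ) + 4 * genus K F + 4 ≤ Divisor.degree (X.push B i)
  /-- the dimension -/
  n : ℕ
  /-- the basis -/
  z : Fin n → F
  /-- its reduction -/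
  zb : Fin n → ∀ i, Fk i
  jred : ∀ m, X.JRed (z m) (zb m)
  li : LinearIndependent k zb
  span : Submodule.span K (Set.range z) = riemannRochSpace B
  spanb : Submodule.span k (Set.range zb) = X.gluedSpace (X.push B)

variable {X}

theorem Ambient.li_z (G : X.Ambient) : LinearIndependent K G.z := linearIndependent_jred G.jred G.li

include hk in
omit [IsAlgClosed K] in
theorem degree_compDiv_le (S : Finset (Σ i, Place k (Fk i))) (i : ι) :
    0 ≤ Divisor.degree (compDiv S i) ∧ Divisor.degree (compDiv S i) ≤ S.card := by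
  classical
  rw [degree_compDiv hk, ← sum_card_compDiv S]
  exact ⟨Nat.cast_nonneg _, Nat.cast_le.2 (Finset.single_le_sum
    (f := fun i => (S.preimage (Sigma.mk i) sigma_mk_injective.injOn).card)
    (fun _ _ => Nat.zero_le _) (Finset.mem_univ i))⟩

include hk in
theorem Ambient.isBig (G : X.Ambient) {D : Divisor K F} (d : ι → ℤ)
    (hd : ∀ i, d i ≤ Divisor.degree (X.push D i)) (hle : ∀ i, (G.N : ℤ) ≤ d i) :
    IsBig X.br (X.push D) :=
  G.big _ (X.avoids_push D) fun i => (hle i).trans (hd i)

/-- Pivots for the discs of `S`: basis members independent modulo functions vanishing on `S`. -/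
structure Ambient.Chart (G : X.Ambient) where
  /-- the points -/
  S : Finset (Σ i, Place k (Fk i))
  smooth : ∀ x ∈ S, ∀ b, X.br b ≠ x
  card_S : S.card = genus K F
  rigid : ∀ H ∈ X.gluedSpace (compDiv S), ∃ a, ∀ i, H i = algebraMap k (Fk i) a
  off : X.Off S G.B
  /-- the pivots -/
  J : Fin (genus K F) → Fin G.n
  J_li : LinearIndependent k fun j =>
    Submodule.Quotient.mk (p := X.gluedSpace (X.push G.B - compDiv S)) (G.zb (J j))

namespace Ambient

variable {G : X.Ambient}

include hF hk

theorem isBig_sub {S : Finset (Σ i, Place k (Fk i))} (hS : S.card ≤ 4 * genus K F + 4)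
    {E : Divisor K F} (hE : X.push E = compDiv S) : IsBig X.br (X.push (G.B - E)) := by
  refine G.isBig hk (fun i => Divisor.degree (X.push G.B i) - S.card) (fun i => ?_) fun i => ?_
  · rw [push_sub', hE, map_sub]
    have := degree_compDiv_le hk S i
    omega
  · have := G.deg_le i
    omega

theorem exists_chart {S : Finset (Σ i, Place k (Fk i))} (hS : ∀ x ∈ S, ∀ b, X.br b ≠ x)
    (hcard : S.card = genus K F)
    (hell : ∀ H ∈ X.gluedSpace (compDiv S), ∃ a, ∀ i, H i = algebraMap k (Fk i) a)
    (hoff : X.Off S G.B) : ∃ C : G.Chart, C.S = S := by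
  classical
  obtain ⟨P, hP, hclean, hpush⟩ := X.exists_over hk hS
  have hE : X.DiscDiv S (∑ Q, Finsupp.single (P Q) (1 : ℤ)) := ⟨P, hP, rfl⟩
  set E := ∑ Q : S, Finsupp.single (P Q) (1 : ℤ)
  have hb := isBig_sub (G := G) hF hk (S := S) (by omega) hE.push_eq
  obtain ⟨-, h1⟩ := X.ell_eq_finrank hF hk (G.clean.sub hE.clean) hb
  rw [show X.push (G.B - E) = X.push G.B - compDiv S from funext fun i => by
    rw [Pi.sub_apply, push_sub', hE.push_eq]] at h1
  obtain ⟨-, h0⟩ := X.ell_eq_finrank hF hk G.clean (G.big _ (X.avoids_push _) fun i => by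
    have := G.deg_le i; omega)
  rw [← G.spanb, finrank_span_eq_card G.li, Fintype.card_fin] at h0
  rw [map_sub, hE.degree hF, hcard] at h1
  set N := X.gluedSpace (X.push G.B - compDiv S)
  obtain ⟨κ, a, ha, hsp, hli⟩ := exists_linearIndependent' (K := k)
    fun m => Submodule.Quotient.mk (p := N) (G.zb m)
  have hle : N ≤ Submodule.span k (Set.range G.zb) := by
    rw [G.spanb]
    exact evalSpace_mono_left X.br fun i => sub_le_self _ (compDiv_nonneg S i)
  haveI : Module.Finite k (Submodule.span k (Set.range G.zb)) :=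
    Module.Finite.span_of_finite k (Set.finite_range _)
  have hmap : Submodule.span k (Set.range fun m => Submodule.Quotient.mk (p := N) (G.zb m)) =
      (Submodule.span k (Set.range G.zb)).map N.mkQ := by
    rw [Submodule.map_span, ← Set.range_comp]; rfl
  have hker := LinearMap.finrank_range_add_finrank_ker
    (N.mkQ.domRestrict (Submodule.span k (Set.range G.zb)))
  rw [LinearMap.range_domRestrict, LinearMap.ker_domRestrict, Submodule.ker_mkQ,
    (Submodule.comapSubtypeEquivOfLe hle).finrank_eq, finrank_span_eq_card G.li,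
    Fintype.card_fin, ← hmap, ← hsp] at hker
  haveI : Finite κ := Finite.of_injective a ha
  haveI : Fintype κ := Fintype.ofFinite κ
  rw [finrank_span_eq_card hli] at hker
  have hκ : Fintype.card κ = genus K F := by omega
  let e : Fin (genus K F) ≃ κ := (finCongr hκ.symm).trans (Fintype.equivFin κ).symm
  exact ⟨⟨S, hS, hcard, hell, hoff, a ∘ e, hli.comp e e.injective⟩, rfl⟩

end Ambient

namespace Ambient.Chart

variable {G : X.Ambient} (C : G.Chart)

open Classical in
/-- The coordinates of a disc divisor. -/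
def coord (E : Divisor K F) : Fin G.n → Fin (genus K F) → K :=
  if h : ∃ c : Fin G.n → Fin (genus K F) → K,
      ∀ m, G.z m - ∑ j, c m j • G.z (C.J j) ∈ riemannRochSpace (G.B - E) then h.choose else 0

theorem sum_pivot_ne_zero {c : Fin (genus K F) → k}
    (h : ∑ j, c j • G.zb (C.J j) ∈ X.gluedSpace (X.push G.B - compDiv C.S)) : c = 0 := by
  refine funext fun j => Fintype.linearIndependent_iff.1 C.J_li c ?_ j
  simp only [← Submodule.mkQ_apply, ← map_smul, ← map_sum]
  exact (Submodule.Quotient.mk_eq_zero _).2 h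

variable {E : Divisor K F} (hE : X.DiscDiv C.S E)

include hF hk hE

theorem jred_mem {f : F} (hf : f ∈ riemannRochSpace (G.B - E)) {H : ∀ i, Fk i} (h : X.JRed f H) :
    H ∈ X.gluedSpace (X.push G.B - compDiv C.S) := by
  have h1 := X.jred_mem_gluedSpace hF (G.clean.sub hE.clean) hf h
  rwa [show X.push (G.B - E) = X.push G.B - compDiv C.S from funext fun i => by
    rw [Pi.sub_apply, push_sub', hE.push_eq]] at h1

theorem pivot_eq_zero {c : Fin (genus K F) → K}
    (h : ∑ j, c j • G.z (C.J j) ∈ riemannRochSpace (G.B - E)) : c = 0 := by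
  by_contra hne
  obtain ⟨j₀, hj₀⟩ := Function.ne_iff.1 hne
  obtain ⟨j, hj0, hj⟩ := ConstRed.exists_max_coeff A c ⟨j₀, hj₀⟩
  have hred : X.JRed ((c j)⁻¹ • ∑ l, c l • G.z (C.J l))
      (∑ l, X.π ⟨_, hj l⟩ • G.zb (C.J l)) := by
    rw [Finset.smul_sum]
    exact jred_sum fun l _ => by rw [smul_smul, ← div_eq_inv_mul]; exact (G.jred _).smul (hj l)
  have h1 := congrFun (C.sum_pivot_ne_zero (C.jred_mem hF hk hE (Submodule.smul_mem _ _ h) hred)) j
  rw [Pi.zero_apply, X.π_eq_zero] at h1
  simp [div_self hj0] at h1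

theorem finrank_sub : (Module.finrank K (riemannRochSpace (G.B - E)) : ℤ) + genus K F = G.n := by
  obtain ⟨h1, -⟩ := X.ell_eq_finrank hF hk (G.clean.sub hE.clean)
    (Ambient.isBig_sub (G := G) hF hk (S := C.S) (by rw [C.card_S]; omega) hE.push_eq)
  obtain ⟨h0, -⟩ := X.ell_eq_finrank hF hk G.clean (G.big _ (X.avoids_push _) fun i => by
    have := G.deg_le i; omega)
  rw [ell, ← G.span, finrank_span_eq_card G.li_z, Fintype.card_fin] at h0
  rw [ell, map_sub, hE.degree hF, C.card_S] at h1
  omega

theorem coord_spec (m : Fin G.n) :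
    G.z m - ∑ j, C.coord E m j • G.z (C.J j) ∈ riemannRochSpace (G.B - E) := by
  classical
  have hex : ∃ c : Fin G.n → Fin (genus K F) → K,
      ∀ m, G.z m - ∑ j, c m j • G.z (C.J j) ∈ riemannRochSpace (G.B - E) := by
    set W := riemannRochSpace (G.B - E)
    set V := Submodule.span K (Set.range fun j => G.z (C.J j))
    haveI := finite_riemannRochSpace hF G.B
    have hWV : W ⊔ V = riemannRochSpace G.B := by
      have hVB : V ≤ riemannRochSpace G.B := by
        rw [← G.span]; exact Submodule.span_mono (Set.range_comp_subset_range C.J G.z)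
      have hWB : W ≤ riemannRochSpace G.B := riemannRochSpace_mono (sub_le_self _ hE.nonneg)
      refine Submodule.eq_of_le_of_finrank_le (sup_le hWB hVB) ?_
      haveI : Module.Finite K W := Submodule.finiteDimensional_of_le hWB
      haveI : Module.Finite K V := Submodule.finiteDimensional_of_le hVB
      have hdisj : W ⊓ V = ⊥ := by
        rw [Submodule.eq_bot_iff]
        rintro f ⟨hfW, hfV⟩
        obtain ⟨c, rfl⟩ := (Submodule.mem_span_range_iff_exists_fun K).1 hfV
        rw [C.pivot_eq_zero hF hk hE hfW]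
        simp
      have h2 := Submodule.finrank_sup_add_finrank_inf_eq W V
      rw [hdisj, finrank_bot, add_zero] at h2
      have hVg : Module.finrank K V = genus K F := by
        rw [finrank_span_eq_card, Fintype.card_fin]
        rw [Fintype.linearIndependent_iff]
        intro c hc
        exact congrFun (C.pivot_eq_zero hF hk hE (c := c) (by rw [hc]; exact Submodule.zero_mem _))
      have h3 : (Module.finrank K W : ℤ) + genus K F = G.n := C.finrank_sub hF hk hE
      rw [← G.span, finrank_span_eq_card G.li_z, Fintype.card_fin]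
      change _ ≤ Module.finrank K (W ⊔ V : Submodule K F)
      omega
    have : ∀ m, ∃ c : Fin (genus K F) → K, G.z m - ∑ j, c j • G.z (C.J j) ∈ W := fun m => by
      have hm : G.z m ∈ W ⊔ V := by rw [hWV, ← G.span]; exact Submodule.subset_span ⟨m, rfl⟩
      obtain ⟨w, hw, u, hu, he⟩ := Submodule.mem_sup.1 hm
      obtain ⟨c, rfl⟩ := (Submodule.mem_span_range_iff_exists_fun K).1 hu
      exact ⟨c, by rwa [← he, add_sub_cancel_right]⟩
    choose c hc using this
    exact ⟨c, hc⟩
  rw [coord, dif_pos hex]
  exact hex.choose_spec m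

theorem coord_unique {c : Fin G.n → Fin (genus K F) → K}
    (h : ∀ m, G.z m - ∑ j, c m j • G.z (C.J j) ∈ riemannRochSpace (G.B - E)) :
    c = C.coord E := funext fun m => by
  have h1 := sub_mem (C.coord_spec hF hk hE m) (h m)
  rw [sub_sub_sub_cancel_left, ← Finset.sum_sub_distrib] at h1
  simp only [← sub_smul] at h1
  exact sub_eq_zero.1 (C.pivot_eq_zero hF hk hE h1)

theorem mem_sub_iff (v : Fin G.n → K) :
    ∑ m, v m • G.z m ∈ riemannRochSpace (G.B - E) ↔ ∀ j, ∑ m, v m * C.coord E m j = 0 := by
  have hsplit : ∑ m, v m • G.z m - ∑ j, (∑ m, v m * C.coord E m j) • G.z (C.J j) =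
      ∑ m, v m • (G.z m - ∑ j, C.coord E m j • G.z (C.J j)) := by
    simp only [smul_sub, Finset.smul_sum, Finset.sum_smul, smul_smul, Finset.sum_sub_distrib]
    rw [Finset.sum_comm]
  have hmem : ∑ m, v m • G.z m - ∑ j, (∑ m, v m * C.coord E m j) • G.z (C.J j) ∈
      riemannRochSpace (G.B - E) := hsplit ▸ Submodule.sum_mem _ fun m _ =>
    Submodule.smul_mem _ _ (C.coord_spec hF hk hE m)
  refine ⟨fun h => congrFun (C.pivot_eq_zero hF hk hE ?_), fun h => ?_⟩
  · have := sub_mem h hmem
    rwa [sub_sub_cancel] at this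
  · simpa [h] using hmem

theorem coord_mem (m : Fin G.n) (j : Fin (genus K F)) : C.coord E m j ∈ A := by
  set c : Option (Fin (genus K F)) → K := fun o => o.elim 1 fun l => C.coord E m l
  obtain ⟨o, ho0, ho⟩ := ConstRed.exists_max_coeff A c ⟨none, one_ne_zero⟩
  rcases o with - | l
  · have h := ho (some j)
    simpa [c] using h
  set d := C.coord E m l
  have hd : d ≠ 0 := ho0
  have hone : d⁻¹ ∈ A := by simpa [c] using ho none
  have hred : X.JRed (d⁻¹ • (G.z m - ∑ i, C.coord E m i • G.z (C.J i)))
      (X.π ⟨d⁻¹, hone⟩ • G.zb m - ∑ i, X.π ⟨_, ho (some i)⟩ • G.zb (C.J i)) := by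
    rw [smul_sub, Finset.smul_sum]
    refine ((G.jred m).smul hone).sub (jred_sum fun i _ => ?_)
    rw [smul_smul, ← div_eq_inv_mul]
    exact (G.jred _).smul (ho (some i))
  by_cases h0 : X.π ⟨d⁻¹, hone⟩ = 0
  · rw [h0, zero_smul, zero_sub] at hred
    have h1 := congrFun (C.sum_pivot_ne_zero (neg_mem_iff.1
      (C.jred_mem hF hk hE (Submodule.smul_mem _ _ (C.coord_spec hF hk hE m)) hred))) l
    rw [Pi.zero_apply, X.π_eq_zero] at h1
    simp [c, d, div_self hd] at h1
  · rw [X.π_eq_zero, not_lt] at h0
    change 1 ≤ A.valuation d⁻¹ at h0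
    have hdA : d ∈ A := (A.valuation_le_one_iff _).1 (by
      rw [map_inv₀] at h0
      exact (one_le_inv₀ (A.valuation.pos_iff.2 hd)).1 h0)
    have := mul_mem (ho (some j)) hdA
    rw [show c (some j) / c (some l) * d = C.coord E m j from div_mul_cancel₀ _ hd] at this
    exact this

theorem coord_res (m : Fin G.n) :
    G.zb m - ∑ j, X.π ⟨_, C.coord_mem hF hk hE m j⟩ • G.zb (C.J j) ∈
      X.gluedSpace (X.push G.B - compDiv C.S) :=
  C.jred_mem hF hk hE (C.coord_spec hF hk hE m)
    ((G.jred m).sub (jred_sum fun j _ => (G.jred _).smul (C.coord_mem hF hk hE m j)))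

theorem res_mem_iff (v : Fin G.n → k) :
    ∑ m, v m • G.zb m ∈ X.gluedSpace (X.push G.B - compDiv C.S) ↔
      ∀ j, ∑ m, v m * X.π ⟨_, C.coord_mem hF hk hE m j⟩ = 0 := by
  have hmem : ∑ m, v m • G.zb m -
      ∑ j, (∑ m, v m * X.π ⟨_, C.coord_mem hF hk hE m j⟩) • G.zb (C.J j) ∈
      X.gluedSpace (X.push G.B - compDiv C.S) := by
    rw [show ∑ m, v m • G.zb m -
        ∑ j, (∑ m, v m * X.π ⟨_, C.coord_mem hF hk hE m j⟩) • G.zb (C.J j) =
        ∑ m, v m • (G.zb m - ∑ j, X.π ⟨_, C.coord_mem hF hk hE m j⟩ • G.zb (C.J j)) by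
      simp only [smul_sub, Finset.smul_sum, Finset.sum_smul, smul_smul, Finset.sum_sub_distrib]
      rw [Finset.sum_comm]]
    exact Submodule.sum_mem _ fun m _ => Submodule.smul_mem _ _ (C.coord_res hF hk hE m)
  refine ⟨fun h => congrFun (C.sum_pivot_ne_zero ?_), fun h => ?_⟩
  · have := sub_mem h hmem
    rwa [sub_sub_cancel] at this
  · simpa [h] using hmem

theorem res_eq {E' : Divisor K F} (hE' : X.DiscDiv C.S E') (m : Fin G.n) (j : Fin (genus K F)) :
    X.π ⟨_, C.coord_mem hF hk hE m j⟩ = X.π ⟨_, C.coord_mem hF hk hE' m j⟩ := by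
  have h := sub_mem (C.coord_res hF hk hE' m) (C.coord_res hF hk hE m)
  rw [sub_sub_sub_cancel_left, ← Finset.sum_sub_distrib] at h
  simp only [← sub_smul] at h
  exact sub_eq_zero.1 (congrFun (C.sum_pivot_ne_zero h) j)

/-- The coordinates determine the divisor. -/
theorem eq_of_coord_eq {E' : Divisor K F} (hE' : X.DiscDiv C.S E')
    (h : C.coord E = C.coord E') : E = E' := by
  classical
  have key : ∀ {E E' : Divisor K F}, X.DiscDiv C.S E → X.DiscDiv C.S E' →
      riemannRochSpace (G.B - E) ≤ riemannRochSpace (G.B - E') → ∀ R, E' R ≤ E R := by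
    intro E E' hE hE' hle R
    by_contra hgt
    rw [not_le] at hgt
    have hR : ∃ x ∈ C.S, X.spl R = some x := by
      by_contra hno
      push Not at hno
      rw [hE.eq_zero hno, hE'.eq_zero hno] at hgt
      omega
    obtain ⟨x, hxS, hRx⟩ := hR
    have hle' : riemannRochSpace (G.B - E) ≤
        riemannRochSpace (G.B - E - Finsupp.single R 1) := fun f hf => by
      rw [FA.Curve.mem_riemannRochSpace]
      intro v
      rcases eq_or_ne v R with rfl | hv
      · refine (FA.Curve.mem_riemannRochSpace.1 (hle hf) v).mono ?_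
        simp only [Finsupp.sub_apply, Finsupp.single_eq_same]
        omega
      · simpa [Finsupp.single_eq_of_ne hv] using FA.Curve.mem_riemannRochSpace.1 hf v
    haveI := finite_riemannRochSpace hF (G.B - E - Finsupp.single R 1)
    have h2 := Submodule.finrank_mono hle'
    have hclean := (G.clean.sub hE.clean).sub (X.clean_single hRx (1 : ℤ))
    have hbig : IsBig X.br (X.push (G.B - E - Finsupp.single R 1)) := by
      refine G.isBig hk (fun i => Divisor.degree (X.push G.B i) - genus K F - 1) (fun i => ?_)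
        fun i => ?_
      · rw [push_sub', push_sub', hE.push_eq, map_sub, map_sub]
        have h3 := (degree_compDiv_le hk C.S i).2
        rw [C.card_S] at h3
        have h4 : Divisor.degree (X.push (Finsupp.single R 1) i) ≤ 1 := by
          obtain ⟨i₀, Q₀⟩ := x
          rcases eq_or_ne i i₀ with rfl | hi
          · rw [X.push_single_same hRx, Divisor.degree_single, (hk i).deg_eq_one]; simp
          · rw [show X.push (Finsupp.single R 1) i = 0 from Finsupp.ext fun Q => by
              rw [push_apply, Finsupp.mapDomain_single, hRx, Finsupp.single_apply, if_neg,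
                Finsupp.zero_apply]
              exact fun h => hi (congrArg Sigma.fst (Option.some_injective _ h)).symm, map_zero]
            exact zero_le_one
        omega
      · have := G.deg_le i
        omega
    obtain ⟨h5, -⟩ := X.ell_eq_finrank hF hk hclean hbig
    have h6 := C.finrank_sub hF hk hE
    obtain ⟨h0, -⟩ := X.ell_eq_finrank hF hk G.clean (G.big _ (X.avoids_push _) fun i => by
      have := G.deg_le i; omega)
    rw [ell, ← G.span, finrank_span_eq_card G.li_z, Fintype.card_fin] at h0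
    rw [ell, map_sub, map_sub, hE.degree hF, C.card_S, Divisor.degree_single,
      hF.deg_eq_one] at h5
    push_cast at h5
    omega
  have hWeq : riemannRochSpace (G.B - E) = riemannRochSpace (G.B - E') := by
    ext f
    by_cases hf : f ∈ riemannRochSpace G.B
    · rw [← G.span] at hf
      obtain ⟨v, rfl⟩ := (Submodule.mem_span_range_iff_exists_fun K).1 hf
      rw [C.mem_sub_iff hF hk hE, C.mem_sub_iff hF hk hE', h]
    · exact ⟨fun h1 => absurd (riemannRochSpace_mono (sub_le_self _ hE.nonneg) h1) hf,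
        fun h1 => absurd (riemannRochSpace_mono (sub_le_self _ hE'.nonneg) h1) hf⟩
  exact Finsupp.ext fun R => le_antisymm (key hE' hE hWeq.ge R) (key hE hE' hWeq.le R)

end Ambient.Chart

end FA.ModField.SemiFibre
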