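import Fermat.Agent.ModField.Semistable.Formal.Colon
import Fermat.Agent.ModField.Semistable.Formal.Coords
import Fermat.Agent.Curve.TraceLocal

/-!
# The addition of disc divisors in coordinates

If the coordinates of `D₁ p`, `D₂ p` lie in a congruence ring of functions of `p`, so do those of
the disc divisor `D₃ p` in the class `D₁ p + D₂ p` shifted by fixed base divisors: two colon
systems and one inversion over the ring.
-/

set_option autoImplicit false
set_option linter.style.haveILetI false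
set_option linter.unusedSectionVars false
set_option maxHeartbeats 1600000

noncomputable section

open Matrix

namespace FA.ModField.SemiFibre

open AlgebraicCurve FA.Curve FA.CurveRed FA.FlatModel

variable {K F k : Type*} [Field K] [Field F] [Algebra K F] [Field k] {ι : Type*} [Fintype ι]
  {Fk : ι → Type*} [∀ i, Field (Fk i)] [∀ i, Algebra k (Fk i)] {A : ValuationSubring K}
  {β σ : Type*} [Fintype β] [Fintype σ] {X : SemiFibre K F k Fk A β σ}

theorem mul_mem_rr {D D' : Divisor K F} {f g : F} (hf : f ∈ riemannRochSpace D)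
    (hg : g ∈ riemannRochSpace D') : f * g ∈ riemannRochSpace (D + D') := by
  rw [FA.Curve.mem_riemannRochSpace]
  intro v
  rw [Finsupp.add_apply, neg_add]
  exact (FA.Curve.mem_riemannRochSpace.1 hf v).mul (FA.Curve.mem_riemannRochSpace.1 hg v)

variable [IsAlgClosed K] [IsAlgClosed k] [Nonempty ι] (hF : IsFunctionField K F)
  (hk : ∀ i, IsFunctionField k (Fk i))

include hk in
omit [IsAlgClosed K] in
theorem gluedSpace_inf (X : SemiFibre K F k Fk A β σ) {T : ∀ i, Divisor k (Fk i)}
    {S₁ S₂ : Finset (Σ i, Place k (Fk i))} (hd : Disjoint S₁ S₂) {H : ∀ i, Fk i}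
    (h₁ : H ∈ X.gluedSpace (T - compDiv S₁)) (h₂ : H ∈ X.gluedSpace (T - compDiv S₂)) :
    H ∈ X.gluedSpace (T - compDiv S₁ - compDiv S₂) := by
  classical
  refine ⟨fun i => ?_, h₁.2⟩
  rw [FA.Curve.mem_riemannRochSpace]
  intro Q
  by_cases hQ : (⟨i, Q⟩ : Σ i, Place k (Fk i)) ∈ S₂
  · have := FA.Curve.mem_riemannRochSpace.1 (h₂.1 i) Q
    simp only [Pi.sub_apply, Finsupp.sub_apply, compDiv_apply, if_pos hQ] at this ⊢
    rwa [if_neg (Finset.disjoint_right.1 hd hQ), sub_zero]
  · have := FA.Curve.mem_riemannRochSpace.1 (h₁.1 i) Q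
    simp only [Pi.sub_apply, Finsupp.sub_apply, compDiv_apply, if_neg hQ, sub_zero] at this ⊢
    exact this

variable {G : X.Ambient}

include hF hk

/-- **The addition step.** -/
theorem Ambient.coord_step (hbr : ∀ i, ∃ b, (X.br b).1 = i) (C₁ C₂ C₃ : G.Chart)
    (h12 : Disjoint C₁.S C₂.S) (h13 : Disjoint C₁.S C₃.S) (h23 : Disjoint C₂.S C₃.S)
    {P : Type*} [Finite P] (p₀ : P) (R : Subalgebra A (P → K)) (hR : R ≤ congAlg X.π P)
    {D₁ D₂ D₃ : P → Divisor K F} {E₁ E₂ E₃ : Divisor K F}
    (hD₁ : ∀ p, X.DiscDiv C₁.S (D₁ p)) (hD₂ : ∀ p, X.DiscDiv C₂.S (D₂ p))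
    (hD₃ : ∀ p, X.DiscDiv C₃.S (D₃ p)) (hE₁ : X.DiscDiv C₁.S E₁) (hE₂ : X.DiscDiv C₂.S E₂)
    (hE₃ : X.DiscDiv C₃.S E₃)
    (hrel : ∀ p, ∃ f : F, f ≠ 0 ∧ D₃ p - E₃ = (D₁ p - E₁) + (D₂ p - E₂) + divOf hF f)
    (h₁ : ∀ m j, (fun p => C₁.coord (D₁ p) m j) ∈ R)
    (h₂ : ∀ m j, (fun p => C₂.coord (D₂ p) m j) ∈ R) (m : Fin G.n) (j : Fin (genus K F)) :
    (fun p => C₃.coord (D₃ p) m j) ∈ R := by
  classical
  revert m j
  set L := locData X.π_surjective X.π_eq_zero p₀ R hR with hLdef
  have hev : ∀ p (r : R), L.ev p r = (r : P → K) p := fun p r => rfl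
  let c₁ : Fin G.n → Fin (genus K F) → R := fun m j => ⟨_, h₁ m j⟩
  let c₂ : Fin G.n → Fin (genus K F) → R := fun m j => ⟨_, h₂ m j⟩
  -- dimensions
  obtain ⟨hnB, -⟩ := X.ell_eq_finrank hF hk G.clean (G.big _ (X.avoids_push _) fun i => by
    have := G.deg_le i; omega)
  rw [ell, ← G.span, finrank_span_eq_card G.li_z, Fintype.card_fin] at hnB
  have hdle : ∀ (C : G.Chart) (i : ι), 0 ≤ Divisor.degree (compDiv C.S i) ∧
      Divisor.degree (compDiv C.S i) ≤ genus K F := fun C i => by
    have := degree_compDiv_le hk C.S i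
    rwa [C.card_S] at this
  have hbig : ∀ {D : Divisor K F} (a : ℤ), (∀ i, Divisor.degree (X.push G.B i) + a ≤
      Divisor.degree (X.push D i)) → -(3 * genus K F : ℤ) - 1 ≤ a → IsBig X.br (X.push D) :=
    fun {D} a hD ha => G.isBig hk (fun i => Divisor.degree (X.push G.B i) + a) hD fun i => by
      have := G.deg_le i
      omega
  -- the space `L(B - D₁ - D₂)`
  have hT : ∀ p, X.push (G.B - D₁ p - D₂ p) = X.push G.B - compDiv C₁.S - compDiv C₂.S :=
    fun p => funext fun i => by
      rw [Pi.sub_apply, Pi.sub_apply, push_sub', push_sub', (hD₁ p).push_eq, (hD₂ p).push_eq]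
  have hbig12 : ∀ p, IsBig X.br (X.push (G.B - D₁ p - D₂ p)) := fun p =>
    hbig (-(2 * genus K F : ℤ)) (fun i => by
      rw [hT, Pi.sub_apply, Pi.sub_apply, map_sub, map_sub]
      have := (hdle C₁ i).2
      have := (hdle C₂ i).2
      omega) (by omega)
  have hdim12 := fun p => X.ell_eq_finrank hF hk
    ((G.clean.sub (hD₁ p).clean).sub (hD₂ p).clean) (hbig12 p)
  set T₁₂ := X.push G.B - compDiv C₁.S - compDiv C₂.S with hT12
  have hdeg12 : ∀ p, Divisor.degree (G.B - D₁ p - D₂ p) =
      Divisor.degree G.B - 2 * genus K F := fun p => by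
    rw [map_sub, map_sub, (hD₁ p).degree hF, (hD₂ p).degree hF, C₁.card_S, C₂.card_S]; ring
  obtain ⟨du, hdu⟩ : ∃ du : ℕ, (du : ℤ) + 2 * genus K F = G.n :=
    ⟨Module.finrank k (X.gluedSpace T₁₂), by
      have := (hdim12 p₀).2
      rw [hT, hdeg12] at this
      omega⟩
  let M₁ : Matrix (Fin (genus K F) ⊕ Fin (genus K F)) (Fin G.n) R :=
    Matrix.of fun j m => Sum.elim (fun j => c₁ m j) (fun j => c₂ m j) j
  have hM₁ : ∀ p (v : Fin G.n → K) (j : Fin (genus K F)),
      (M₁.map (L.ev p) *ᵥ v) (Sum.inl j) = ∑ m, v m * C₁.coord (D₁ p) m j ∧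
      (M₁.map (L.ev p) *ᵥ v) (Sum.inr j) = ∑ m, v m * C₂.coord (D₂ p) m j := fun p v j => by
    simp only [Matrix.mulVec, dotProduct]
    exact ⟨Finset.sum_congr rfl fun m _ => mul_comm _ _,
      Finset.sum_congr rfl fun m _ => mul_comm _ _⟩
  have hM₁b : ∀ (v : Fin G.n → k) (j : Fin (genus K F)),
      (M₁.map L.res *ᵥ v) (Sum.inl j) =
        ∑ m, v m * X.π ⟨_, C₁.coord_mem hF hk (hD₁ p₀) m j⟩ ∧
      (M₁.map L.res *ᵥ v) (Sum.inr j) =
        ∑ m, v m * X.π ⟨_, C₂.coord_mem hF hk (hD₂ p₀) m j⟩ := fun v j => by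
    simp only [Matrix.mulVec, dotProduct]
    exact ⟨Finset.sum_congr rfl fun m _ => mul_comm _ _,
      Finset.sum_congr rfl fun m _ => mul_comm _ _⟩
  have hker : ∀ p (v : Fin G.n → K), v ∈ LinearMap.ker (M₁.map (L.ev p)).mulVecLin ↔
      ∑ m, v m • G.z m ∈ riemannRochSpace (G.B - D₁ p - D₂ p) := by
    intro p v
    rw [LinearMap.mem_ker, Matrix.mulVecLin_apply]
    refine ⟨fun h => ?_, fun h => funext fun j => ?_⟩
    · have e₁ := (C₁.mem_sub_iff hF hk (hD₁ p) v).2 fun j => by
        have := congrFun h (Sum.inl j)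
        rw [Pi.zero_apply] at this
        rw [← (hM₁ p v j).1, this]
      have e₂ := (C₂.mem_sub_iff hF hk (hD₂ p) v).2 fun j => by
        have := congrFun h (Sum.inr j)
        rw [Pi.zero_apply] at this
        rw [← (hM₁ p v j).2, this]
      rw [FA.Curve.mem_riemannRochSpace] at e₁ e₂ ⊢
      intro R₀
      by_cases hR₀ : D₂ p R₀ = 0
      · simpa [hR₀] using e₁ R₀
      · have h0 : D₁ p R₀ = 0 := by
          by_contra hne
          obtain ⟨x, hx, hRx⟩ : ∃ x ∈ C₂.S, X.spl R₀ = some x := by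
            by_contra hno
            push Not at hno
            exact hR₀ ((hD₂ p).eq_zero hno)
          exact hne ((hD₁ p).off h12 R₀ x hx hRx)
        simpa [h0] using e₂ R₀
    · rcases j with j | j
      · have h' : ∑ m, v m • G.z m ∈ riemannRochSpace (G.B - D₁ p) :=
          riemannRochSpace_mono (sub_le_self _ (hD₂ p).nonneg) h
        rw [Pi.zero_apply, (hM₁ p v j).1]
        exact (C₁.mem_sub_iff hF hk (hD₁ p) v).1 h' j
      · have h' : ∑ m, v m • G.z m ∈ riemannRochSpace (G.B - D₂ p) :=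
          riemannRochSpace_mono (by
            rw [sub_right_comm]; exact sub_le_self _ (hD₁ p).nonneg) h
        rw [Pi.zero_apply, (hM₁ p v j).2]
        exact (C₂.mem_sub_iff hF hk (hD₂ p) v).1 h' j
  have hkerb : ∀ v : Fin G.n → k, v ∈ LinearMap.ker (M₁.map L.res).mulVecLin ↔
      ∑ m, v m • G.zb m ∈ X.gluedSpace T₁₂ := by
    intro v
    rw [LinearMap.mem_ker, Matrix.mulVecLin_apply]
    refine ⟨fun h => gluedSpace_inf hk X h12
      ((C₁.res_mem_iff hF hk (hD₁ p₀) v).2 fun j => ?_)
      ((C₂.res_mem_iff hF hk (hD₂ p₀) v).2 fun j => ?_), fun h => funext fun j => ?_⟩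
    · have := congrFun h (Sum.inl j)
      rw [Pi.zero_apply] at this
      rw [← (hM₁b v j).1, this]
    · have := congrFun h (Sum.inr j)
      rw [Pi.zero_apply] at this
      rw [← (hM₁b v j).2, this]
    · rcases j with j | j
      · have h' := evalSpace_mono_left X.br
          (fun i => show T₁₂ i ≤ (X.push G.B - compDiv C₁.S) i from
            sub_le_self _ (compDiv_nonneg _ i)) h
        rw [Pi.zero_apply, (hM₁b v j).1]
        exact (C₁.res_mem_iff hF hk (hD₁ p₀) v).1 h' j
      · have h' := evalSpace_mono_left X.br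
          (fun i => show T₁₂ i ≤ (X.push G.B - compDiv C₂.S) i by
            simp only [hT12, Pi.sub_apply]
            rw [sub_right_comm]; exact sub_le_self _ (compDiv_nonneg _ i)) h
        rw [Pi.zero_apply, (hM₁b v j).2]
        exact (C₂.res_mem_iff hF hk (hD₂ p₀) v).1 h' j
  have hzinj : Function.Injective (Fintype.linearCombination K G.z) :=
    linearIndependent_iff_injective_fintypeLinearCombination.1 G.li_z
  have hzbinj : Function.Injective (Fintype.linearCombination k G.zb) :=
    linearIndependent_iff_injective_fintypeLinearCombination.1 G.li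
  have hmapK : ∀ p, (LinearMap.ker (M₁.map (L.ev p)).mulVecLin).map
      (Fintype.linearCombination K G.z) = riemannRochSpace (G.B - D₁ p - D₂ p) := fun p => by
    refine le_antisymm ?_ fun f hf => ?_
    · rintro _ ⟨v, hv, rfl⟩
      exact (hker p v).1 hv
    · have hfB : f ∈ Submodule.span K (Set.range G.z) := by
        rw [G.span]
        exact riemannRochSpace_mono
          ((sub_le_self _ (hD₂ p).nonneg).trans (sub_le_self _ (hD₁ p).nonneg)) hf
      obtain ⟨v, hv⟩ := (Submodule.mem_span_range_iff_exists_fun K).1 hfB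
      exact ⟨v, (hker p v).2 (hv ▸ hf), hv⟩
  have hmapk : (LinearMap.ker (M₁.map L.res).mulVecLin).map
      (Fintype.linearCombination k G.zb) = X.gluedSpace T₁₂ := by
    refine le_antisymm ?_ fun H hH => ?_
    · rintro _ ⟨v, hv, rfl⟩
      exact (hkerb v).1 hv
    · have hHB : H ∈ Submodule.span k (Set.range G.zb) := by
        rw [G.spanb]
        exact evalSpace_mono_left X.br (fun i => (sub_le_self _ (compDiv_nonneg _ i)).trans
          (sub_le_self _ (compDiv_nonneg _ i))) hH
      obtain ⟨v, hv⟩ := (Submodule.mem_span_range_iff_exists_fun k).1 hHB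
      exact ⟨v, (hkerb v).2 (hv ▸ hH), hv⟩
  obtain ⟨a, ha, hali, hab⟩ := L.exists_kernel X.π_eq_zero M₁ du (fun p => by
    rw [(Submodule.equivMapOfInjective _ hzinj _).finrank_eq, hmapK]
    have := (hdim12 p).1
    rw [hdeg12, ell] at this
    omega) (by
    rw [(Submodule.equivMapOfInjective _ hzbinj _).finrank_eq, hmapk]
    have := (hdim12 p₀).2
    rw [hT, hdeg12] at this
    omega)
  have hu : ∀ p, Submodule.span K (Set.range fun i => fam L G.z (a i) p) =
      riemannRochSpace (G.B - D₁ p - D₂ p) := fun p => by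
    rw [← hmapK, ← ha, Submodule.map_span, ← Set.range_comp]
    rfl
  have hub : Submodule.span k (Set.range fun i => famb L G.zb (a i)) = X.gluedSpace T₁₂ := by
    rw [← hmapk, ← hab, Submodule.map_span, ← Set.range_comp]
    rfl
  -- the member with value one at all branches
  obtain ⟨H₁, hH₁, hH₁v, hH₁0⟩ := X.exists_ones hk (hT p₀ ▸ hbig12 p₀) hbr
  obtain ⟨b, hb⟩ := (Submodule.mem_span_range_iff_exists_fun k).1 (hub.symm ▸ hH₁)
  choose b' hb' using fun i => L.res_surjective (b i)
  set s : Fin G.n → R := fun q => ∑ i, b' i * a i q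
  have hsb : famb L G.zb s = H₁ := by
    rw [← hb]
    simp only [famb, s, map_sum, map_mul, hb', Finset.sum_smul, mul_smul, Finset.smul_sum]
    rw [Finset.sum_comm]
  have hsmem : ∀ p, fam L G.z s p ∈ riemannRochSpace (G.B - D₁ p - D₂ p) := fun p => by
    rw [← hu]
    refine (Submodule.mem_span_range_iff_exists_fun K).2 ⟨fun i => L.ev p (b' i), ?_⟩
    simp only [fam, s, map_sum, map_mul, Finset.sum_smul, mul_smul, Finset.smul_sum]
    rw [Finset.sum_comm]
  have hs0 : ∀ p, fam L G.z s p ≠ 0 := fun p =>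
    (jred_fam L G.jred s p (Classical.arbitrary ι)).ne_zero (hsb.symm ▸ hH₁0 _)
  -- the first colon
  set B₂ := G.B + E₃ - E₁ - E₂ with hB₂def
  have hB₂clean : X.Clean B₂ := ((G.clean.add hE₃.clean).sub hE₁.clean).sub hE₂.clean
  have hT₂ : X.push B₂ = X.push G.B + compDiv C₃.S - compDiv C₁.S - compDiv C₂.S :=
    funext fun i => by
      simp only [hB₂def, Pi.sub_apply, Pi.add_apply]
      rw [push_sub', push_sub', push_add, hE₃.push_eq, hE₁.push_eq, hE₂.push_eq]
  have hdeg₂ : ∀ i, Divisor.degree (X.push B₂ i) ≥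
      Divisor.degree (X.push G.B i) - 2 * genus K F := fun i => by
    rw [hT₂, Pi.sub_apply, Pi.sub_apply, Pi.add_apply, map_sub, map_sub, map_add]
    have := (hdle C₁ i).2
    have := (hdle C₂ i).2
    have := (hdle C₃ i).1
    omega
  obtain ⟨n₂, z₂, z₂b, hz₂, hz₂li, hz₂s, hz₂b⟩ := X.exists_jbasis hF hk hB₂clean
    (hbig (-(2 * genus K F : ℤ)) (fun i => by linarith [hdeg₂ i]) (by omega))
  have hposB : ∀ i, (0 : ℤ) ≤ Divisor.degree (X.push G.B i) - 2 * genus K F := fun i => by
    have := G.deg_le i; omega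
  obtain ⟨n₄, e₄, e₄b, he₄, he₄li, he₄s, -⟩ := X.exists_jbasis hF hk (hB₂clean.add G.clean)
    (hbig 0 (fun i => by
      rw [push_add, map_add]
      linarith [hdeg₂ i, hposB i]) (by omega))
  choose f hf hfe using hrel
  have hfdiv : ∀ p, divOf hF (f p) = D₃ p - E₃ - (D₁ p - E₁) - (D₂ p - E₂) := fun p => by
    rw [hfe p]; abel
  have hfmem : ∀ p, f p ∈ riemannRochSpace (D₁ p + D₂ p + E₃ - E₁ - E₂) := fun p => by
    rw [FA.Curve.mem_riemannRochSpace]
    intro v
    refine Or.inr ?_
    have h1 := congrArg (fun D : Divisor K F => D v) (hfdiv p)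
    have h2 := Finsupp.le_def.1 (hD₃ p).nonneg v
    simp only [divOf_apply, Finsupp.sub_apply, Finsupp.add_apply, Finsupp.coe_zero,
      Pi.zero_apply] at h1 h2 ⊢
    omega
  have huf : ∀ p g, g ∈ riemannRochSpace (G.B - D₁ p - D₂ p) →
      g * f p ∈ riemannRochSpace B₂ := fun p g hg => by
    have := mul_mem_rr hg (hfmem p)
    rwa [show G.B - D₁ p - D₂ p + (D₁ p + D₂ p + E₃ - E₁ - E₂) = B₂ by
      simp only [hB₂def]; abel] at this
  haveI : Module.Finite k (Submodule.span k {H₁}) :=
    Module.Finite.span_of_finite k (Set.finite_singleton H₁)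
  obtain ⟨a₂, ha₂, ha₂li, ha₂b⟩ := exists_colon L hz₂ hz₂li hz₂ hz₂li he₄ he₄li G.jred G.jred
    (fun q l => by
      rw [he₄s]
      exact mul_mem_rr (hz₂s ▸ Submodule.subset_span ⟨q, rfl⟩) (G.span ▸ Submodule.subset_span ⟨l, rfl⟩))
    (fun q l => by
      rw [he₄s]
      exact mul_mem_rr (hz₂s ▸ Submodule.subset_span ⟨q, rfl⟩) (G.span ▸ Submodule.subset_span ⟨l, rfl⟩))
    a s (fun i => hsb.symm ▸ hH₁0 i) p₀ (fun p => Submodule.span K {fam L G.z s p * f p})
    (d := 1) (fun p => (finrank_span_singleton (mul_ne_zero (hs0 p) (hf p))).ge)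
    (fun p h hh => by
      obtain ⟨c, rfl⟩ := Submodule.mem_span_singleton.1 hh
      refine ⟨hz₂s ▸ Submodule.smul_mem _ c (huf p _ (hsmem p)), fun i => ?_⟩
      refine ⟨c • (fam L G.z (a i) p * f p), hz₂s ▸ Submodule.smul_mem _ c
        (huf p _ (hu p ▸ Submodule.subset_span ⟨i, rfl⟩)), ?_⟩
      rw [smul_mul_assoc, mul_smul_comm]
      congr 1
      ring)
    (Submodule.span k {H₁}) (finrank_span_singleton (fun h => hH₁0 (Classical.arbitrary ι)
      (congrFun h _))).le
    (fun H hH hY => by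
      rw [hz₂b] at hH
      simp only [hsb, hz₂b] at hY
      have hY' : ∀ U ∈ X.gluedSpace T₁₂, ∃ Y ∈ X.gluedSpace (X.push B₂), H * U = H₁ * Y := by
        intro U hU
        rw [← hub] at hU
        induction hU using Submodule.span_induction with
        | mem x hx => obtain ⟨i, rfl⟩ := hx; exact hY i
        | zero => exact ⟨0, zero_mem _, by simp⟩
        | add x y _ _ hx hy =>
          obtain ⟨Y, hY, e⟩ := hx
          obtain ⟨Y', hY', e'⟩ := hy
          exact ⟨Y + Y', add_mem hY hY', by rw [mul_add, mul_add, e, e']⟩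
        | smul c x _ hx =>
          obtain ⟨Y, hY, e⟩ := hx
          exact ⟨c • Y, Submodule.smul_mem _ c hY, by rw [mul_smul_comm, mul_smul_comm, e]⟩
      set r : ∀ i, Fk i := fun i => H i / H₁ i
      have hr : ∀ i, H i = r i * H₁ i := fun i => (div_mul_cancel₀ _ (hH₁0 i)).symm
      obtain ⟨hHmem, v, hv, hHv⟩ := hH
      have hrv : ∀ b, HasValue (X.br b).2 (r (X.br b).1) (v b) := fun b => by
        have h1 := (hH₁v b).smul (v b)
        rw [mul_one] at h1
        have h2 := ((hHv b).sub h1)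
        rw [sub_self, hasValue_zero_iff] at h2
        have hord : (X.br b).2.ord (H₁ (X.br b).1) = 0 := (HasValue.ord_eq_zero (hH₁v b) one_ne_zero).2
        have h3 := h2.mul (atLeast_ord (v := (X.br b).2) (H₁ (X.br b).1)⁻¹)
        rw [(X.br b).2.ord_inv, hord, neg_zero, add_zero, sub_mul, mul_assoc,
          mul_inv_cancel₀ (hH₁0 _), mul_one, ← div_eq_mul_inv] at h3
        exact h3
      have hrS : r ∈ X.gluedSpace (compDiv C₃.S) := by
        refine ⟨fun i => ?_, v, hv, hrv⟩
        rw [FA.Curve.mem_riemannRochSpace]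
        intro Q
        by_cases hQ : ∀ b, X.br b ≠ ⟨i, Q⟩
        · obtain ⟨U, hU, hU0, hUord⟩ := X.exists_exact hk hQ (T := T₁₂) (hT p₀ ▸ hbig12 p₀)
            (G.big _ (fun b => by
              have hav := X.avoids_push (G.B - D₁ p₀ - D₂ p₀) b
              rw [hT] at hav
              have hbQ := hQ b
              revert hav hbQ
              generalize X.br b = y
              obtain ⟨i', Q'⟩ := y
              intro hav hbQ
              rcases eq_or_ne i' i with rfl | hi
              · rw [Function.update_self, Finsupp.sub_apply, hav,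
                  Finsupp.single_eq_of_ne fun h : Q' = Q => hbQ (by rw [h]), sub_zero]
              · rw [Function.update_of_ne hi]; exact hav) fun i' => by
              have h1 := G.deg_le i'
              have h2 := (hdle C₁ i').2
              have h3 := (hdle C₂ i').2
              rcases eq_or_ne i' i with rfl | hi
              · rw [Function.update_self, hT12, Pi.sub_apply, Pi.sub_apply, map_sub, map_sub,
                  map_sub, Divisor.degree_single, (hk i').deg_eq_one]
                push_cast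
                omega
              · rw [Function.update_of_ne hi, hT12, Pi.sub_apply, Pi.sub_apply, map_sub, map_sub]
                omega)
          obtain ⟨Y, hY, he⟩ := hY' U hU
          rcases eq_or_ne (r i) 0 with h0 | h0
          · exact Or.inl h0
          have he' : r i * U i = Y i := mul_left_cancel₀ (hH₁0 i) (by
            have := congrFun he i
            rw [Pi.mul_apply, Pi.mul_apply, hr i] at this
            rw [← this]; ring)
          have hY0 : Y i ≠ 0 := he' ▸ mul_ne_zero h0 hU0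
          have h1 := (atLeast_iff hY0).1 (FA.Curve.mem_riemannRochSpace.1 (hY.1 i) Q)
          have h2 := congrArg Q.ord he'
          rw [Q.ord_mul h0 hU0, hUord] at h2
          refine Or.inr ?_
          rw [hT₂] at h1
          simp only [hT12, Pi.sub_apply, Pi.add_apply, Finsupp.sub_apply, Finsupp.add_apply] at h1 h2
          omega
        · push Not at hQ
          obtain ⟨b, hb⟩ := hQ
          have h1 := (hrv b).atLeast
          have h2 := X.avoids_compDiv hk C₃.smooth b
          rw [hb] at h1 h2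
          rw [h2, neg_zero]
          exact h1
      obtain ⟨c, hc⟩ := C₃.rigid r hrS
      exact Submodule.mem_span_singleton.2 ⟨c, funext fun i => by
        rw [Pi.smul_apply, Algebra.smul_def, hr i, hc i]⟩)
  -- the function with divisor `D₃`
  set w := fun p => fam L z₂ (a₂ 0) p with hwdef
  obtain ⟨c, hc⟩ : ∃ c : k, c • H₁ = famb L z₂b (a₂ 0) :=
    Submodule.mem_span_singleton.1 (ha₂b ▸ Submodule.subset_span ⟨0, rfl⟩)
  have hwb : famb L z₂b (a₂ 0) ≠ 0 := ha₂li.ne_zero 0
  have hc0 : c ≠ 0 := fun h => hwb (by rw [← hc, h, zero_smul])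
  have hwb0 : ∀ i, famb L z₂b (a₂ 0) i ≠ 0 := fun i => by
    rw [← hc, Pi.smul_apply]
    exact smul_ne_zero hc0 (hH₁0 i)
  have hw0 : ∀ p, w p ≠ 0 := fun p =>
    (jred_fam L hz₂ (a₂ 0) p (Classical.arbitrary ι)).ne_zero (hwb0 _)
  have hwf : ∀ p, ∃ l : K, w p = l • (fam L G.z s p * f p) := fun p => by
    obtain ⟨l, hl⟩ := Submodule.mem_span_singleton.1
      (show w p ∈ Submodule.span K {fam L G.z s p * f p} from
        ha₂ p ▸ Submodule.subset_span ⟨0, rfl⟩)
    exact ⟨l, hl.symm⟩
  choose l hl using hwf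
  -- the second colon
  set B₃ := G.B + E₁ + E₂ - E₃ with hB₃def
  have hB₃clean : X.Clean B₃ := ((G.clean.add hE₁.clean).add hE₂.clean).sub hE₃.clean
  have hT₃ : X.push B₃ = X.push G.B + compDiv C₁.S + compDiv C₂.S - compDiv C₃.S :=
    funext fun i => by
      simp only [hB₃def, Pi.sub_apply, Pi.add_apply]
      rw [push_sub', push_add, push_add, hE₃.push_eq, hE₁.push_eq, hE₂.push_eq]
  obtain ⟨n₃, z₃, z₃b, hz₃, hz₃li, hz₃s, hz₃b⟩ := X.exists_jbasis hF hk hB₃clean
    (hbig (-(genus K F : ℤ)) (fun i => by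
      rw [hT₃, Pi.sub_apply, Pi.add_apply, Pi.add_apply, map_sub, map_add, map_add]
      have := (hdle C₁ i).1
      have := (hdle C₂ i).1
      have := (hdle C₃ i).2
      omega) (by omega))
  obtain ⟨n₅, e₅, e₅b, he₅, he₅li, he₅s, -⟩ := X.exists_jbasis hF hk (G.clean.add G.clean)
    (hbig 0 (fun i => by
      rw [push_add, map_add]
      linarith [hposB i]) (by omega))
  have hN3 : ∀ p, X.push (G.B - D₃ p) = X.push G.B - compDiv C₃.S := fun p => funext fun i => by
    rw [Pi.sub_apply, push_sub', (hD₃ p).push_eq]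
  obtain ⟨d₃, hd₃⟩ : ∃ d : ℕ, (d : ℤ) + genus K F = G.n :=
    ⟨_, C₃.finrank_sub hF hk (hD₃ p₀)⟩
  haveI := X.finite_gluedSpace hk (X.push G.B - compDiv C₃.S)
  obtain ⟨a₃, ha₃, ha₃li, ha₃b⟩ := exists_colon L G.jred G.li hz₃ hz₃li he₅ he₅li G.jred hz₂
    (fun q l => by
      rw [he₅s]
      exact mul_mem_rr (G.span ▸ Submodule.subset_span ⟨q, rfl⟩) (G.span ▸ Submodule.subset_span ⟨l, rfl⟩))
    (fun q l => by
      rw [he₅s, show G.B + G.B = B₃ + B₂ by simp only [hB₂def, hB₃def]; abel]
      exact mul_mem_rr (hz₃s ▸ Submodule.subset_span ⟨q, rfl⟩) (hz₂s ▸ Submodule.subset_span ⟨l, rfl⟩))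
    (fun _ : Unit => s) (a₂ 0) hwb0 p₀ (fun p => riemannRochSpace (G.B - D₃ p)) (d := d₃)
    (fun p => by
      have := C₃.finrank_sub hF hk (hD₃ p)
      omega)
    (fun p h hh => by
      refine ⟨G.span ▸ riemannRochSpace_mono (sub_le_self _ (hD₃ p).nonneg) hh, fun _ =>
        ⟨h * fam L G.z s p / w p, ?_, (mul_div_cancel₀ _ (hw0 p)).symm⟩⟩
      have hl0 : l p ≠ 0 := fun h0 => hw0 p (by rw [hl, h0, zero_smul])
      have e : h * fam L G.z s p / w p = (l p)⁻¹ • (h * (f p)⁻¹) := by
        rw [hl p, Algebra.smul_def, Algebra.smul_def, map_inv₀]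
        field_simp [hs0 p, hf p]
      rw [hz₃s, e]
      refine Submodule.smul_mem _ _ ?_
      rw [FA.Curve.mem_riemannRochSpace]
      intro v
      refine ((FA.Curve.mem_riemannRochSpace.1 hh v).mul
        (atLeast_ord (v := v) (f p)⁻¹)).mono ?_
      have h1 := congrArg (fun D : Divisor K F => D v) (hfdiv p)
      have h2 := Finsupp.le_def.1 (hD₁ p).nonneg v
      have h3 := Finsupp.le_def.1 (hD₂ p).nonneg v
      simp only [hB₃def, divOf_apply, Finsupp.sub_apply, Finsupp.add_apply, Finsupp.coe_zero,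
        Pi.zero_apply] at h1 h2 h3 ⊢
      rw [v.ord_inv]
      omega)
    (X.gluedSpace (X.push G.B - compDiv C₃.S)) (by
      have h1 := X.ell_eq_finrank hF hk (G.clean.sub (hD₃ p₀).clean)
        (Ambient.isBig_sub (G := G) hF hk (S := C₃.S) (by rw [C₃.card_S]; omega)
          (hD₃ p₀).push_eq)
      rw [hN3, map_sub, (hD₃ p₀).degree hF, C₃.card_S] at h1
      omega)
    (fun H hH hY => by
      rw [G.spanb] at hH
      simp only [hsb, hz₃b, ← hc] at hY
      obtain ⟨Y, hY, he⟩ := hY ()
      have he' : ∀ i, H i = c • Y i := fun i => mul_left_cancel₀ (hH₁0 i) (by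
        have := congrFun he i
        rw [Pi.mul_apply, Pi.mul_apply, Pi.smul_apply, smul_mul_assoc, ← mul_smul_comm] at this
        rw [← this, mul_comm])
      have hHC : ∀ i, H i ∈ riemannRochSpace (X.push B₃ i) := fun i => by
        rw [he']; exact Submodule.smul_mem _ _ (hY.1 i)
      refine ⟨fun i => ?_, hH.2⟩
      rw [FA.Curve.mem_riemannRochSpace]
      intro Q
      by_cases hQ : (⟨i, Q⟩ : Σ i, Place k (Fk i)) ∈ C₃.S
      · refine (FA.Curve.mem_riemannRochSpace.1 (hHC i) Q).mono ?_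
        simp only [hT₃, Pi.sub_apply, Pi.add_apply, Finsupp.sub_apply, Finsupp.add_apply,
          compDiv_apply, if_pos hQ, if_neg (Finset.disjoint_right.1 h13 hQ),
          if_neg (Finset.disjoint_right.1 h23 hQ)]
        omega
      · simpa [compDiv_apply, hQ] using FA.Curve.mem_riemannRochSpace.1 (hH.1 i) Q)
  -- inversion
  let row : Fin d₃ ⊕ Fin (genus K F) → Fin G.n → R :=
    Sum.elim a₃ fun j => Pi.single (C₃.J j) 1
  let e₀ : Fin G.n ≃ Fin d₃ ⊕ Fin (genus K F) :=
    (finCongr (by omega : G.n = d₃ + genus K F)).trans finSumFinEquiv.symm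
  let Q : Matrix (Fin G.n) (Fin G.n) R := Matrix.of fun i => row (e₀ i)
  have hrow : LinearIndependent k fun x q => L.res (row x q) := by
    rw [Fintype.linearIndependent_iff]
    intro g hg
    have h1 : ∑ i, g (Sum.inl i) • famb L G.zb (a₃ i) +
        ∑ j, g (Sum.inr j) • G.zb (C₃.J j) = 0 := by
      have hsum : ∀ x, famb L G.zb (row x) =
          Sum.elim (fun i => famb L G.zb (a₃ i)) (fun j => G.zb (C₃.J j)) x := by
        rintro (i | j)
        · rfl
        · simp [row, famb, Pi.single_apply, apply_ite, ite_smul]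
      have h2 : ∑ x, g x • famb L G.zb (row x) = 0 := by
        simp only [famb, Finset.smul_sum, smul_smul]
        rw [Finset.sum_comm]
        refine Finset.sum_eq_zero fun q _ => ?_
        rw [← Finset.sum_smul]
        have := congrFun hg q
        simp only [Finset.sum_apply, Pi.smul_apply, smul_eq_mul, Pi.zero_apply] at this
        rw [this, zero_smul]
      simpa [hsum, Fintype.sum_sum_type] using h2
    have h2 : (fun j => g (Sum.inr j)) = 0 := C₃.sum_pivot_ne_zero (by
      rw [eq_neg_of_add_eq_zero_right h1]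
      exact neg_mem (ha₃b ▸ Submodule.sum_mem _ fun i _ =>
        Submodule.smul_mem _ _ (Submodule.subset_span ⟨i, rfl⟩)))
    simp only [funext_iff, Pi.zero_apply] at h2
    simp only [h2, zero_smul, Finset.sum_const_zero, add_zero] at h1
    rintro (i | j)
    · exact Fintype.linearIndependent_iff.1 ha₃li (fun i => g (Sum.inl i)) h1 i
    · exact h2 j
  have hQdet : IsUnit Q.det := L.isUnit _ (by
    rw [RingHom.map_det, RingHom.mapMatrix_apply]
    exact IsUnit.ne_zero ((Matrix.isUnit_iff_isUnit_det _).1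
      (Matrix.linearIndependent_rows_iff_isUnit.1 (hrow.comp e₀ e₀.injective))))
  set Qi := Q⁻¹ with hQi
  intro m j
  suffices hC : ∀ p, C₃.coord (D₃ p) m j = (Qi m (e₀.symm (Sum.inr j)) : P → K) p by
    rw [show (fun p => C₃.coord (D₃ p) m j) = (Qi m (e₀.symm (Sum.inr j)) : P → K) from
      funext hC]
    exact (Qi m _).2
  intro p
  rw [← C₃.coord_unique hF hk (hD₃ p)
    (c := fun m j => (Qi m (e₀.symm (Sum.inr j)) : P → K) p) fun m => ?_]
  have hid : ∀ q, ∑ i, L.ev p (Qi m i) * L.ev p (Q i q) = if m = q then 1 else 0 := fun q => by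
    have h1 := congrArg (L.ev p) (congrFun (congrFun (Matrix.nonsing_inv_mul Q hQdet) m) q)
    rw [Matrix.mul_apply, map_sum] at h1
    simp only [map_mul] at h1
    rw [h1, Matrix.one_apply, apply_ite (L.ev p), map_one, map_zero]
  have hz : G.z m = ∑ x, L.ev p (Qi m (e₀.symm x)) • fam L G.z (row x) p := by
    calc G.z m = ∑ q, (if m = q then (1 : K) else 0) • G.z q := by simp [ite_smul]
      _ = ∑ i, L.ev p (Qi m i) • fam L G.z (row (e₀ i)) p := by
          simp only [← hid, Finset.sum_smul, fam, Finset.smul_sum, smul_smul]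
          rw [Finset.sum_comm]
          rfl
      _ = _ := (Fintype.sum_equiv e₀ _ _ fun i => by rw [e₀.symm_apply_apply])
  have hrowJ : ∀ j, fam L G.z (row (Sum.inr j)) p = G.z (C₃.J j) := fun j => by
    simp [row, fam, Pi.single_apply, apply_ite, ite_smul]
  rw [hz, Fintype.sum_sum_type]
  simp only [hrowJ, hev, add_sub_cancel_right]
  refine Submodule.sum_mem _ fun i _ => Submodule.smul_mem _ _ ?_
  exact ha₃ p ▸ Submodule.subset_span ⟨i, rfl⟩

end FA.ModField.SemiFibre
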