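import Fermat.Agent.ModField.Semistable.Formal.Fixed
import Fermat.Agent.ModField.Semistable.Formal.Step
import Fermat.Agent.ModField.Semistable.Inject

/-!
# The connected part of the torsion on a semistable special fibre

The `n`-torsion classes reducing to zero on all components, for `n` a power of the residue
characteristic, carry integral separating functions with constant residues, closed under addition
and respected by automorphisms acting trivially on the special fibre: coordinates of disc divisors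
over a nonspecial set of points with fixed places over it.
-/

set_option autoImplicit false
set_option linter.style.haveILetI false
set_option linter.unusedSectionVars false
set_option maxHeartbeats 800000

noncomputable section

namespace FA.ModField.SemiFibre

open AlgebraicCurve FA.Curve FA.CurveRed

variable {K F k : Type*} [Field K] [Field F] [Algebra K F] [Field k] {ι : Type*} [Fintype ι]
  {Fk : ι → Type*} [∀ i, Field (Fk i)] [∀ i, Algebra k (Fk i)] {A : ValuationSubring K}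
  {β σ : Type*} [Fintype β] [Fintype σ] {X : SemiFibre K F k Fk A β σ}

variable [IsAlgClosed K] [IsAlgClosed k] [Nonempty ι] (hF : IsFunctionField K F)
  (hk : ∀ i, IsFunctionField k (Fk i))

omit [IsAlgClosed K] [Nonempty ι] in
/-- The toric target has no `n`-torsion when `n`-th roots of unity are trivial. -/
theorem toricTarget_eq_zero {n : ℕ} (hn : n ≠ 0) (hroot : ∀ a : k, a ^ n = 1 → a = 1)
    {t : X.ToricTarget} (ht : n • t = 0) : t = 0 := by
  obtain ⟨u, rfl⟩ : ∃ u : β → kˣ, Additive.ofMul (QuotientGroup.mk u) = t := by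
    obtain ⟨u, hu⟩ := QuotientGroup.mk_surjective t.toMul
    exact ⟨u, by rw [hu]; rfl⟩
  rw [← ofMul_pow, ofMul_eq_zero, ← QuotientGroup.mk_pow, QuotientGroup.eq_one_iff] at ht
  obtain ⟨⟨s, c⟩, hsc⟩ := ht
  have hroots : ∀ a : kˣ, ∃ b : kˣ, b ^ n = a := fun a => by
    obtain ⟨b, hb⟩ := IsAlgClosed.exists_pow_nat_eq (a : k) (Nat.pos_of_ne_zero hn)
    refine ⟨Units.mk0 b fun h0 => a.ne_zero (by rw [← hb, h0, zero_pow hn]), Units.ext ?_⟩
    simpa using hb
  choose root hroot' using hroots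
  rw [ofMul_eq_zero, QuotientGroup.eq_one_iff]
  refine ⟨(fun x => root (s x), fun i => root (c i)), funext fun b => ?_⟩
  show root (s (X.pt b)) * root (c (X.br b).1) = u b
  have h1 : s (X.pt b) * c (X.br b).1 = u b ^ n := congrFun hsc b
  have h2 : (u b * (root (s (X.pt b)) * root (c (X.br b).1))⁻¹) ^ n = 1 := by
    rw [mul_pow, inv_pow, mul_pow, hroot', hroot', h1, mul_inv_cancel]
  exact (mul_inv_eq_one.1 (Units.ext (hroot _ (by
    rw [← Units.val_pow_eq_pow_val, h2, Units.val_one])))).symm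

include hF hk

theorem toricHom_eq_zero {n : ℕ} (hn : n ≠ 0) (hroot : ∀ a : k, a ^ n = 1 → a = 1)
    (y : X.toricKer hF n) : X.toricHom hF hk hn y = 0 := by
  refine toricTarget_eq_zero hn hroot ?_
  have h0 : n • y = 0 := Subtype.ext (Subtype.ext (by
    simp only [AddSubgroup.coe_nsmul, AddSubgroup.coe_zero]
    have h1 := Pic0.mem_torsion.1 y.1.2
    rwa [natCast_zsmul] at h1))
  rw [← map_nsmul, h0, map_zero]

/-- An effective divisor over a rigid set of points has one section. -/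
theorem ell_discDiv_le {S : Finset (Σ i, Place k (Fk i))}
    (hrigid : ∀ H ∈ X.gluedSpace (compDiv S), ∃ a, ∀ i, H i = algebraMap k (Fk i) a)
    {D : Divisor K F} (hD : X.DiscDiv S D) : ell D ≤ 1 := by
  have h1 := X.trivTwist.ell_le_finrank hF hk one_ne_zero hD.clean
  rw [show (X.trivTwist.D : Divisor K F) = 0 from rfl, zero_add] at h1
  have hle : X.trivTwist.space D ≤ Submodule.span k {(1 : ∀ i, Fk i)} := by
    rintro H ⟨f, hf, hH⟩
    have hf' : f ∈ riemannRochSpace D := by simpa [trivTwist] using hf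
    have hred : X.JRed f H := fun i => by
      obtain ⟨r, hr, e⟩ := hH i
      simp only [trivTwist, map_one, one_mul, mul_one] at hr e
      rwa [e]
    obtain ⟨a, ha⟩ := hrigid H (hD.push_eq ▸ X.jred_mem_gluedSpace hF hD.clean hf' hred)
    exact Submodule.mem_span_singleton.2 ⟨a, funext fun i => by
      rw [Pi.smul_apply, Pi.one_apply, Algebra.smul_def, mul_one, ha]⟩
  haveI : Module.Finite k (Submodule.span k {(1 : ∀ i, Fk i)}) :=
    Module.Finite.span_of_finite k (Set.finite_singleton _)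
  have h2 := Submodule.finrank_mono hle
  have h3 : Module.finrank k (Submodule.span k {(1 : ∀ i, Fk i)}) = 1 :=
    finrank_span_singleton fun h => one_ne_zero (congrFun h (Classical.arbitrary ι))
  omega

/-- The coordinates commute with automorphisms fixing the embedding. -/
theorem Ambient.Chart.coord_smul {G : X.Ambient} (C : G.Chart) {τ : SemilinearAut K F}
    (hB : τ • G.B = G.B) (hz : ∀ m, τ • G.z m = G.z m) {E : Divisor K F}
    (hE : X.DiscDiv C.S E) (hτE : X.DiscDiv C.S (τ • E)) (m : Fin G.n) (j : Fin (genus K F)) :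
    SemilinearAut.baseAut τ (C.coord E m j) = C.coord (τ • E) m j := by
  refine congrFun (congrFun (C.coord_unique hF hk hτE
    (c := fun m j => SemilinearAut.baseAut τ (C.coord E m j)) fun m => ?_) m) j
  have h := FlatModel.smul_mem_riemannRochSpace τ (C.coord_spec hF hk hE m)
  rw [smul_sub, smul_sub, hB, hz, Finset.smul_sum] at h
  simpa only [FlatModel.smul_smul', hz] using h

variable {T : Set (SemilinearAut K F)}

/-- A chart with fixed places over its points, avoiding a finite set. -/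
theorem exists_fixed_chart (G : X.Ambient) (hlift : ∀ i, (X.fixGood T i).Infinite)
    (avoid : Finset (Σ i, Place k (Fk i)))
    (hoff : ∀ S : Finset (Σ i, Place k (Fk i)), Disjoint S avoid → X.Off S G.B) :
    ∃ C : G.Chart, Disjoint C.S avoid ∧ ∃ P₀ : C.S → Place K F,
      (∀ x, X.spl (P₀ x) = some x.1) ∧ ∀ τ ∈ T, ∀ x, τ • P₀ x = P₀ x := by
  classical
  obtain ⟨N, hN⟩ := exists_big_bound X.br hk
  obtain ⟨S₀, hgood, hdisj, hcard⟩ := exists_good_points hlift (N + genus K F) avoid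
  have hsmooth : ∀ x ∈ S₀, ∀ b, X.br b ≠ x := fun x hx => (hgood x hx).1
  have hg : genus K F ≤ S₀.card := by
    rw [← sum_card_compDiv S₀]
    exact (Nat.le_add_left _ N).trans ((hcard (Classical.arbitrary ι)).ge.trans
      (Finset.single_le_sum
        (f := fun i => (S₀.preimage (Sigma.mk i) sigma_mk_injective.injOn).card)
        (fun _ _ => Nat.zero_le _) (Finset.mem_univ _)))
  obtain ⟨S, hsub, hScard, hrigid⟩ := X.exists_nonspecial_sub hF hk hsmooth
    (hN _ (X.avoids_compDiv hk hsmooth) fun i => by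
      rw [degree_compDiv hk, hcard]; push_cast; omega) hg
  have hSd : Disjoint S avoid := Finset.disjoint_of_subset_left hsub hdisj
  obtain ⟨C, rfl⟩ := Ambient.exists_chart (G := G) hF hk (fun x hx => hsmooth x (hsub hx)) hScard
    hrigid (hoff S hSd)
  choose P hP hfix using fun x : C.S => (hgood x.1 (hsub x.2)).2
  exact ⟨C, hSd, P, hP, fun τ hτ x => hfix x τ hτ⟩

/-- **Coordinates on the connected part.** -/
theorem exists_conn_generators (hbr : ∀ i, ∃ b, (X.br b).1 = i) {n : ℕ} (hn : n ≠ 0)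
    (hroot : ∀ a : k, a ^ n = 1 → a = 1) (hT : ∀ τ ∈ T, X.Stable τ)
    (hlift : ∀ i, (X.fixGood T i).Infinite)
    {V : Type} [AddCommGroup V] [Finite V] (ι' : V →+ Pic0 K F) (hι : Function.Injective ι')
    (hV : ∀ x, ∃ y : X.toricKer hF n, ((y : Pic0.torsion K F n) : Pic0 K F) = ι' x) :
    ∃ (Γ : Type) (_ : Finite Γ) (φ : Γ → V → K), (∀ γ x, φ γ x ∈ A) ∧
      (∀ x y, (∀ γ, φ γ x = φ γ y) → x = y) ∧ (∀ γ x, A.valuation (φ γ x - φ γ 0) < 1) ∧
      (∀ γ, (fun z : V × V => φ γ (z.1 + z.2)) ∈ Algebra.adjoin A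
        (Set.range (fun γ (z : V × V) => φ γ z.1) ∪ Set.range fun γ (z : V × V) => φ γ z.2)) ∧
      ∀ τ ∈ T, ∀ act : V → V, (∀ x, ι' (act x) = τ • ι' x) →
        ∀ γ x, SemilinearAut.baseAut τ (φ γ x) = φ γ (act x) := by
  classical
  obtain ⟨G, hGB, hGz, av₀, hoff⟩ := exists_ambient hF hk hT hlift
  obtain ⟨C₁, hd₁, P₁, hP₁, hfix₁⟩ := exists_fixed_chart hF hk G hlift av₀ hoff
  obtain ⟨C₂, hd₂, P₂, hP₂, hfix₂⟩ := exists_fixed_chart hF hk G hlift (av₀ ∪ C₁.S)
    fun S hS => hoff S (Finset.disjoint_of_subset_right Finset.subset_union_left hS)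
  obtain ⟨C₃, hd₃, P₃, hP₃, hfix₃⟩ := exists_fixed_chart hF hk G hlift (av₀ ∪ C₁.S ∪ C₂.S)
    fun S hS => hoff S (Finset.disjoint_of_subset_right
      (Finset.subset_union_left.trans Finset.subset_union_left) hS)
  have h12 : Disjoint C₁.S C₂.S :=
    (Finset.disjoint_of_subset_right Finset.subset_union_right hd₂).symm
  have h13 : Disjoint C₁.S C₃.S := (Finset.disjoint_of_subset_right
    (Finset.subset_union_right.trans Finset.subset_union_left) hd₃).symm
  have h23 : Disjoint C₂.S C₃.S :=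
    (Finset.disjoint_of_subset_right Finset.subset_union_right hd₃).symm
  -- divisors with one point in each disc, in a given class
  let InCls : Divisor K F → Divisor K F → V → Prop := fun E D x =>
    ∃ h : D - E ∈ Divisor.degZero (K := K) (F := F), Pic0.mk ⟨D - E, h⟩ = ι' x
  have hrel : ∀ {Z Z' : Divisor.degZero (K := K) (F := F)}, Pic0.mk Z = Pic0.mk Z' →
      ∃ f : F, f ≠ 0 ∧ (Z' : Divisor K F) = Z + divOf hF f := by
    intro Z Z' h
    rw [Pic0.mk, Pic0.mk, QuotientAddGroup.eq, AddSubgroup.mem_addSubgroupOf] at h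
    obtain ⟨f, hf, hfv⟩ := h
    refine ⟨f, hf, Finsupp.ext fun v => ?_⟩
    have := hfv v
    simp only [AddSubgroup.coe_add, AddSubgroup.coe_neg, Finsupp.add_apply, Finsupp.neg_apply]
      at this
    rw [Finsupp.add_apply, divOf_apply]
    omega
  have hzero : ∀ E : Divisor K F, InCls E E 0 := fun E =>
    ⟨by rw [sub_self]; exact zero_mem _, by
      rw [map_zero, show (⟨E - E, _⟩ : Divisor.degZero (K := K) (F := F)) = 0 from
        Subtype.ext (sub_self E)]
      rfl⟩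
  have hadd : ∀ {E₁ E₂ E₃ D₁ D₂ D₃ : Divisor K F} {x y z : V}, InCls E₁ D₁ x → InCls E₂ D₂ y →
      InCls E₃ D₃ z → z = x + y →
      ∃ f : F, f ≠ 0 ∧ D₃ - E₃ = (D₁ - E₁) + (D₂ - E₂) + divOf hF f := by
    rintro E₁ E₂ E₃ D₁ D₂ D₃ x y z ⟨h₁, e₁⟩ ⟨h₂, e₂⟩ ⟨h₃, e₃⟩ rfl
    obtain ⟨f, hf, he⟩ := hrel (Z := ⟨D₁ - E₁, h₁⟩ + ⟨D₂ - E₂, h₂⟩) (Z' := ⟨D₃ - E₃, h₃⟩)
      (by rw [Pic0.mk_add, e₁, e₂, e₃, map_add])
    exact ⟨f, hf, he⟩
  have hex : ∀ (C : G.Chart) (P₀ : C.S → Place K F), (∀ Q, X.spl (P₀ Q) = some Q.1) → ∀ x,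
      ∃ D, X.DiscDiv C.S D ∧ InCls (∑ Q, Finsupp.single (P₀ Q) 1) D x := by
    intro C P₀ hP₀ x
    obtain ⟨y, hy⟩ := hV x
    obtain ⟨D₀, g, hD₀, hg, hgD⟩ := exists_torsion_fn n (y : Pic0.torsion K F n)
    obtain ⟨t, htD, ht⟩ := exists_glued_twist hF hk hn (toricHom_eq_zero hF hk hn hroot y) hD₀ hg hgD
    have hE : X.DiscDiv C.S (∑ Q, Finsupp.single (P₀ Q) (1 : ℤ)) := ⟨P₀, hP₀, rfl⟩
    obtain ⟨P, f, hP, hf, he⟩ := exists_disc_divisor hF hk hn ht C.smooth C.card_S C.rigid hP₀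
      hE.clean hE.push_eq
    have hD : X.DiscDiv C.S (∑ Q, Finsupp.single (P Q) (1 : ℤ)) := ⟨P, hP, rfl⟩
    refine ⟨_, hD, ?_⟩
    have hdeg : (∑ Q, Finsupp.single (P Q) (1 : ℤ)) - ∑ Q, Finsupp.single (P₀ Q) (1 : ℤ) ∈
        Divisor.degZero (K := K) (F := F) := by
      show Divisor.degree _ = 0
      rw [map_sub, hD.degree hF, hE.degree hF, sub_self]
    refine ⟨hdeg, ?_⟩
    rw [← hy, ← hD₀, Pic0.mk, Pic0.mk, QuotientAddGroup.eq, AddSubgroup.mem_addSubgroupOf]
    refine ⟨f⁻¹, inv_ne_zero hf, fun v => ?_⟩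
    have := congrArg (fun D : Divisor K F => D v) he
    simp only [Finsupp.add_apply, divOf_apply, htD] at this
    simp only [AddSubgroup.coe_add, AddSubgroup.coe_neg, Finsupp.add_apply, Finsupp.neg_apply,
      Finsupp.sub_apply, v.ord_inv]
    omega
  have huniq : ∀ (C : G.Chart) {E D D' : Divisor K F} {x : V}, X.DiscDiv C.S D →
      X.DiscDiv C.S D' → InCls E D x → InCls E D' x → D = D' := by
    rintro C E D D' x hD hD' ⟨h₁, e₁⟩ ⟨h₂, e₂⟩
    obtain ⟨f, hf, he⟩ := hrel (e₁.trans e₂.symm)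
    have he' : D' = D + divOf hF f := by
      have he2 : D' - E = D - E + divOf hF f := he
      calc D' = D' - E + E := (sub_add_cancel _ _).symm
        _ = _ := by rw [he2]; abel
    have hfD : f ∈ riemannRochSpace D := by
      rw [FA.Curve.mem_riemannRochSpace]
      intro v
      refine Or.inr ?_
      have h1 := congrArg (fun D : Divisor K F => D v) he'
      have h2 := Finsupp.le_def.1 hD'.nonneg v
      simp only [Finsupp.add_apply, divOf_apply, Finsupp.coe_zero, Pi.zero_apply] at h1 h2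
      omega
    have h1D : (1 : F) ∈ riemannRochSpace D := by
      rw [FA.Curve.mem_riemannRochSpace]
      intro v
      refine Or.inr ?_
      rw [v.ord_one]
      have := Finsupp.le_def.1 hD.nonneg v
      simp only [Finsupp.coe_zero, Pi.zero_apply] at this
      omega
    haveI := finite_riemannRochSpace hF D
    have hle : Submodule.span K {(1 : F)} ≤ riemannRochSpace D :=
      (Submodule.span_singleton_le_iff_mem _ _).2 h1D
    have heq := Submodule.eq_of_le_of_finrank_le hle (by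
      rw [finrank_span_singleton one_ne_zero]
      have := ell_discDiv_le hF hk C.rigid hD
      rw [ell] at this
      omega)
    rw [← heq, Submodule.mem_span_singleton] at hfD
    obtain ⟨a, rfl⟩ := hfD
    rw [he']
    refine Finsupp.ext fun v => ?_
    rw [Finsupp.add_apply, divOf_apply, Algebra.smul_def, mul_one, place_ord_algebraMap, add_zero]
  set E₁ := ∑ Q, Finsupp.single (P₁ Q) (1 : ℤ)
  set E₂ := ∑ Q, Finsupp.single (P₂ Q) (1 : ℤ)
  set E₃ := ∑ Q, Finsupp.single (P₃ Q) (1 : ℤ)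
  have hE₁ : X.DiscDiv C₁.S E₁ := ⟨P₁, hP₁, rfl⟩
  have hE₂ : X.DiscDiv C₂.S E₂ := ⟨P₂, hP₂, rfl⟩
  have hE₃ : X.DiscDiv C₃.S E₃ := ⟨P₃, hP₃, rfl⟩
  choose D₁ hD₁ hc₁ using hex C₁ P₁ hP₁
  choose D₂ hD₂ hc₂ using hex C₂ P₂ hP₂
  choose D₃ hD₃ hc₃ using hex C₃ P₃ hP₃
  let φ : Fin G.n × Fin (genus K F) → V → K := fun γ x => C₁.coord (D₁ x) γ.1 γ.2
  have hint : ∀ γ x, φ γ x ∈ A := fun γ x => C₁.coord_mem hF hk (hD₁ x) γ.1 γ.2
  have hres : ∀ γ x y, X.π ⟨φ γ x, hint γ x⟩ = X.π ⟨φ γ y, hint γ y⟩ := fun γ x y =>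
    C₁.res_eq hF hk (hD₁ x) (hD₁ y) γ.1 γ.2
  set R := Algebra.adjoin A
    (Set.range (fun γ (z : V × V) => φ γ z.1) ∪ Set.range fun γ (z : V × V) => φ γ z.2)
  have hR : R ≤ FlatModel.congAlg X.π (V × V) := Algebra.adjoin_le (by
    rintro _ (⟨γ, rfl⟩ | ⟨γ, rfl⟩)
    · exact ⟨fun z => hint γ z.1, fun z w _ _ => hres γ z.1 w.1⟩
    · exact ⟨fun z => hint γ z.2, fun z w _ _ => hres γ z.2 w.2⟩)
  have hconst : ∀ (C : G.Chart) {E : Divisor K F}, X.DiscDiv C.S E → ∀ m j,
      (fun _ : V × V => C.coord E m j) ∈ R := fun C E hE m j =>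
    R.algebraMap_mem ⟨C.coord E m j, C.coord_mem hF hk hE m j⟩
  have hfst : ∀ m j, (fun z : V × V => C₁.coord (D₁ z.1) m j) ∈ R := fun m j =>
    Algebra.subset_adjoin (Or.inl ⟨(m, j), rfl⟩)
  have hsnd : ∀ m j, (fun z : V × V => C₁.coord (D₁ z.2) m j) ∈ R := fun m j =>
    Algebra.subset_adjoin (Or.inr ⟨(m, j), rfl⟩)
  have hy₂ : ∀ m j, (fun z : V × V => C₂.coord (D₂ z.2) m j) ∈ R :=
    Ambient.coord_step hF hk hbr C₁ C₃ C₂ h13 h12 h23.symm (0, 0) R hR (fun z => hD₁ z.2)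
      (fun _ => hE₃) (fun z => hD₂ z.2) hE₁ hE₃ hE₂
      (fun z => hadd (hc₁ z.2) (hzero E₃) (hc₂ z.2) (add_zero _).symm) hsnd (hconst C₃ hE₃)
  have hs₃ : ∀ m j, (fun z : V × V => C₃.coord (D₃ (z.1 + z.2)) m j) ∈ R :=
    Ambient.coord_step hF hk hbr C₁ C₂ C₃ h12 h13 h23 (0, 0) R hR (fun z => hD₁ z.1)
      (fun z => hD₂ z.2) (fun z => hD₃ (z.1 + z.2)) hE₁ hE₂ hE₃
      (fun z => hadd (hc₁ z.1) (hc₂ z.2) (hc₃ _) rfl) hfst hy₂
  have hs₁ : ∀ m j, (fun z : V × V => C₁.coord (D₁ (z.1 + z.2)) m j) ∈ R :=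
    Ambient.coord_step hF hk hbr C₃ C₂ C₁ h23.symm h13.symm h12.symm (0, 0) R hR
      (fun z => hD₃ (z.1 + z.2)) (fun _ => hE₂) (fun z => hD₁ (z.1 + z.2)) hE₃ hE₂ hE₁
      (fun z => hadd (hc₃ _) (hzero E₂) (hc₁ _) (add_zero _).symm) hs₃ (hconst C₂ hE₂)
  refine ⟨Fin G.n × Fin (genus K F), inferInstance, φ, hint, fun x y h => ?_, fun γ x => ?_,
    fun γ => hs₁ γ.1 γ.2, fun τ hτ act hact γ x => ?_⟩
  · have hD : D₁ x = D₁ y := C₁.eq_of_coord_eq hF hk (hD₁ x) (hD₁ y)
      (funext fun m => funext fun j => h (m, j))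
    obtain ⟨h₁, e₁⟩ := hc₁ x
    obtain ⟨h₂, e₂⟩ := hc₁ y
    refine hι ?_
    rw [← e₁, ← e₂]
    exact congrArg Pic0.mk (Subtype.ext (congrArg (fun D => D - E₁) hD))
  · have h1 := sub_eq_zero.2 (hres γ x 0)
    rw [← map_sub, X.π_eq_zero] at h1
    exact h1
  · have hτD : X.DiscDiv C₁.S (τ • D₁ x) := by
      obtain ⟨P, hP, he⟩ := hD₁ x
      refine ⟨fun Q => τ • P Q, fun Q => (hT τ hτ).spl_smul hF hk (hP Q), ?_⟩
      rw [he, Finset.smul_sum]
      exact Finset.sum_congr rfl fun Q _ => SemilinearAut.smul_single _ _ _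
    have hτE : τ • E₁ = E₁ := by
      simp only [E₁, Finset.smul_sum]
      exact Finset.sum_congr rfl fun Q _ => by rw [SemilinearAut.smul_single, hfix₁ τ hτ]
    have he : τ • D₁ x = D₁ (act x) := by
      refine huniq C₁ (E := E₁) hτD (hD₁ _) ?_ (hc₁ _)
      obtain ⟨h, e⟩ := hc₁ x
      have hcoe : (SemilinearAut.degZeroSMulHom τ ⟨D₁ x - E₁, h⟩ : Divisor K F) =
          τ • D₁ x - E₁ := by
        rw [SemilinearAut.coe_degZeroSMulHom, smul_sub, hτE]
      refine ⟨hcoe ▸ (SemilinearAut.degZeroSMulHom τ ⟨D₁ x - E₁, h⟩).2, ?_⟩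
      rw [hact, ← e, SemilinearAut.pic0_smul_mk]
      exact congrArg Pic0.mk (Subtype.ext hcoe.symm)
    show SemilinearAut.baseAut τ (C₁.coord (D₁ x) γ.1 γ.2) = C₁.coord (D₁ (act x)) γ.1 γ.2
    rw [C₁.coord_smul hF hk (hGB τ hτ) (hGz τ hτ) (hD₁ x) hτD, he]

end FA.ModField.SemiFibre
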