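import Fermat.Agent.FlatModel.Kernel
import Fermat.Agent.FlatModel.Echelon
import Fermat.Agent.ModField.Semistable.Formal.Glued

/-!
# Colon systems on a semistable special fibre over a congruence ring

A system `h φ_j = s y_j` in Riemann-Roch spaces, with coefficients in a congruence ring, has a
family of solutions over the ring as soon as its reduction has no more solutions than each point.
-/

set_option autoImplicit false
set_option linter.style.haveILetI false
set_option linter.unusedSectionVars false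
set_option maxHeartbeats 800000

noncomputable section

open Matrix

namespace FA.FlatModel.LocData

variable {K : Type*} [Field K] {k : Type*} [Field k] {A : ValuationSubring K} {π : A →+* k}
  {P S : Type*} [CommRing S] (L : LocData K k π P S)

/-- Kernels can only grow after reduction. -/
theorem finrank_ker_ev_le {ρ μ : Type*} [Fintype ρ] [Fintype μ] (M : Matrix ρ μ S) (p : P) :
    Module.finrank K (LinearMap.ker (M.map (L.ev p)).mulVecLin) ≤
      Module.finrank k (LinearMap.ker (M.map L.res).mulVecLin) := by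
  classical
  set f := (M.map L.res).mulVecLin with hf
  set r := Module.finrank k (LinearMap.range f)
  let b := Module.finBasis k (LinearMap.range f)
  obtain ⟨q, hq⟩ := (LinearMap.range f).subtype.exists_leftInverse_of_injective
    (Submodule.ker_subtype _)
  let T₀ := b.equivFun.toLinearMap ∘ₗ q
  have hsurj : LinearMap.range (T₀ ∘ₗ f) = ⊤ := LinearMap.range_eq_top.2 fun y => by
    obtain ⟨x, hx⟩ := (b.equivFun.symm y).2
    refine ⟨x, ?_⟩
    show b.equivFun (q (f x)) = y
    rw [hx, show q ((b.equivFun.symm y : LinearMap.range f) : ρ → k) = b.equivFun.symm y from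
      LinearMap.congr_fun hq _, LinearEquiv.apply_symm_apply]
  obtain ⟨S₀, hS₀⟩ := (T₀ ∘ₗ f).exists_rightInverse_of_surjective hsurj
  choose sec hsec using L.res_surjective
  let T : Matrix (Fin r) ρ S := (LinearMap.toMatrix' T₀).map sec
  let Sg : Matrix μ (Fin r) S := (LinearMap.toMatrix' S₀).map sec
  have hB : (T * M * Sg).map L.res = 1 := by
    rw [Matrix.map_mul, Matrix.map_mul,
      show T.map L.res = LinearMap.toMatrix' T₀ from Matrix.ext fun _ _ => hsec _,
      show Sg.map L.res = LinearMap.toMatrix' S₀ from Matrix.ext fun _ _ => hsec _,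
      ← LinearMap.toMatrix'_toLin' (M.map L.res), Matrix.toLin'_apply', ← hf,
      ← LinearMap.toMatrix'_comp, ← LinearMap.toMatrix'_comp, hS₀, LinearMap.toMatrix'_id]
  have hBdet : IsUnit ((T * M * Sg).map (L.ev p)).det := by
    have h1 : IsUnit (T * M * Sg).det := L.isUnit _ (by
      rw [RingHom.map_det, RingHom.mapMatrix_apply, hB, Matrix.det_one]
      exact one_ne_zero)
    have h2 := h1.map (L.ev p)
    rwa [RingHom.map_det, RingHom.mapMatrix_apply] at h2
  have hinj : Function.Injective ((M * Sg).map (L.ev p)).mulVecLin := fun x y hxy => by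
    refine Matrix.mulVec_injective_iff_isUnit.2 ((Matrix.isUnit_iff_isUnit_det _).2 hBdet) ?_
    simp only [Matrix.mulVecLin_apply] at hxy ⊢
    rw [Matrix.mul_assoc, Matrix.map_mul, ← Matrix.mulVec_mulVec, hxy, Matrix.mulVec_mulVec,
      ← Matrix.map_mul]
  have h1 := LinearMap.finrank_range_of_inj hinj
  have h2 : LinearMap.range ((M * Sg).map (L.ev p)).mulVecLin ≤
      LinearMap.range (M.map (L.ev p)).mulVecLin := by
    rw [Matrix.map_mul, Matrix.mulVecLin_mul]
    exact LinearMap.range_comp_le_range _ _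
  have h3 := Submodule.finrank_mono h2
  have h4 := LinearMap.finrank_range_add_finrank_ker (M.map (L.ev p)).mulVecLin
  have h5 := LinearMap.finrank_range_add_finrank_ker f
  rw [Module.finrank_fintype_fun_eq_card] at h4 h5
  rw [h1, Module.finrank_fintype_fun_eq_card, Fintype.card_fin] at h3
  have h6 : Module.finrank k (LinearMap.range f) = r := rfl
  omega

end FA.FlatModel.LocData

namespace FA.ModField.SemiFibre

open AlgebraicCurve FA.Curve FA.CurveRed FA.FlatModel

variable {K F k : Type*} [Field K] [Field F] [Algebra K F] [Field k] {ι : Type*} [Fintype ι]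
  {Fk : ι → Type*} [∀ i, Field (Fk i)] [∀ i, Algebra k (Fk i)] {A : ValuationSubring K}
  {β σ : Type*} [Fintype β] [Fintype σ] {X : SemiFibre K F k Fk A β σ} [Nonempty ι]
  {P S : Type*} [CommRing S] (L : LocData K k X.π P S)

/-- The member of a family at a point. -/
def fam {μ : Type*} [Fintype μ] (w : μ → F) (a : μ → S) (p : P) : F := ∑ m, L.ev p (a m) • w m

/-- The reduction of a family. -/
def famb {μ : Type*} [Fintype μ] (wb : μ → ∀ i, Fk i) (a : μ → S) : ∀ i, Fk i :=
  ∑ m, L.res (a m) • wb m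

theorem jred_fam {μ : Type*} [Fintype μ] {w : μ → F} {wb : μ → ∀ i, Fk i}
    (hw : ∀ m, X.JRed (w m) (wb m)) (a : μ → S) (p : P) :
    X.JRed (fam L w a p) (famb L wb a) := by
  refine jred_sum fun m _ => ?_
  obtain ⟨h, he⟩ := L.ev_res p (a m)
  rw [← he]
  exact (hw m).smul h

variable {I₁ I₂ I₃ W₁ W₂ J : Type*} [Fintype I₁] [Fintype I₂] [Fintype I₃] [Fintype W₁]
  [Fintype W₂] [Fintype J]
  {z : I₁ → F} {zb : I₁ → ∀ i, Fk i} {z' : I₂ → F} {zb' : I₂ → ∀ i, Fk i}
  {e : I₃ → F} {eb : I₃ → ∀ i, Fk i} {w : W₁ → F} {wb : W₁ → ∀ i, Fk i}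
  {w' : W₂ → F} {wb' : W₂ → ∀ i, Fk i}

/-- Coefficients of products in a family with independent reductions. -/
theorem exists_mul_coeff (hz : ∀ m, X.JRed (z m) (zb m)) (hw : ∀ m, X.JRed (w m) (wb m))
    (he : ∀ m, X.JRed (e m) (eb m)) (heli : LinearIndependent k eb)
    (hzw : ∀ m l, z m * w l ∈ Submodule.span K (Set.range e)) :
    ∃ c : I₁ → W₁ → I₃ → A, (∀ m l, z m * w l = ∑ q, (c m l q : K) • e q) ∧
      ∀ m l, zb m * wb l = ∑ q, X.π (c m l q) • eb q := by
  have h := fun m l => (Submodule.mem_span_range_iff_exists_fun K).1 (hzw m l)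
  choose c hc using h
  have hA : ∀ m l q, c m l q ∈ A := fun m l q =>
    coord_mem_jred he heli (c m l) (hc m l).symm ((hz m).mul (hw l)) q
  exact ⟨fun m l q => ⟨c m l q, hA m l q⟩, fun m l => (hc m l).symm, fun m l =>
    residue_coord_jred he heli (c m l) (hA m l) (hc m l).symm ((hz m).mul (hw l))⟩

theorem finrank_map_of_disjoint {R M V : Type*} [Field R] [AddCommGroup M] [Module R M]
    [AddCommGroup V] [Module R V] (N : Submodule R M) (pr : M →ₗ[R] V)
    (h : Disjoint N (LinearMap.ker pr)) : Module.finrank R (N.map pr) = Module.finrank R N := by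
  rw [← LinearMap.range_domRestrict, LinearMap.finrank_range_of_inj]
  rw [← LinearMap.ker_eq_bot, Submodule.eq_bot_iff]
  exact fun x hx => Subtype.ext (Submodule.disjoint_def.1 h _ x.2 (LinearMap.mem_ker.2
    (LinearMap.mem_ker.1 hx)))

/-- Products of combinations. -/
theorem sum_smul_mul_sum_smul {R V I W Q : Type*} [CommRing R] [CommRing V] [Algebra R V]
    [Fintype I] [Fintype W] [Fintype Q] (Z : I → V) (W₀ : W → V) (E : Q → V) (g : I → W → Q → R)
    (hp : ∀ i l, Z i * W₀ l = ∑ q, g i l q • E q) (c : I → R) (d : W → R) :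
    (∑ i, c i • Z i) * ∑ l, d l • W₀ l = ∑ q, (∑ i, c i * ∑ l, d l * g i l q) • E q := by
  calc (∑ i, c i • Z i) * ∑ l, d l • W₀ l
      = ∑ i, ∑ l, ∑ q, (c i * (d l * g i l q)) • E q := by
        rw [Finset.sum_mul_sum]
        refine Finset.sum_congr rfl fun i _ => Finset.sum_congr rfl fun l _ => ?_
        rw [smul_mul_smul_comm, hp, Finset.smul_sum]
        exact Finset.sum_congr rfl fun q _ => by rw [smul_smul, mul_assoc]
    _ = ∑ q, ∑ i, ∑ l, (c i * (d l * g i l q)) • E q := by
        rw [Finset.sum_congr rfl fun i _ => Finset.sum_comm, Finset.sum_comm]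
    _ = _ := by simp only [Finset.mul_sum, Finset.sum_smul]

open Classical in
/-- The matrix of a colon system. -/
def colonMat (γ : I₁ → W₁ → I₃ → A) (γ' : I₂ → W₂ → I₃ → A) (φ : J → W₁ → S) (s : W₂ → S) :
    Matrix (J × I₃) (I₁ ⊕ (J × I₂)) S :=
  Matrix.of fun jq x => Sum.elim (fun i => ∑ l, φ jq.1 l * L.const (γ i l jq.2))
    (fun jl => if jl.1 = jq.1 then -∑ l, s l * L.const (γ' jl.2 l jq.2) else 0) x

theorem mem_ker_colonMat (γ : I₁ → W₁ → I₃ → A) (γ' : I₂ → W₂ → I₃ → A) (φ : J → W₁ → S)
    (s : W₂ → S) {R V : Type*} [Field R] [CommRing V] [Algebra R V] (f : S →+* R)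
    (Z : I₁ → V) (Z' : I₂ → V) (W₀ : W₁ → V) (W₀' : W₂ → V) (E : I₃ → V) (g : A →+* R)
    (hg : ∀ a, f (L.const a) = g a)
    (hp : ∀ i l, Z i * W₀ l = ∑ q, g (γ i l q) • E q)
    (hp' : ∀ i l, Z' i * W₀' l = ∑ q, g (γ' i l q) • E q)
    (hE : LinearIndependent R E) (v : I₁ ⊕ (J × I₂) → R) :
    v ∈ LinearMap.ker ((colonMat L γ γ' φ s).map f).mulVecLin ↔
      ∀ j, (∑ i, v (Sum.inl i) • Z i) * ∑ l, f (φ j l) • W₀ l =
        (∑ l, f (s l) • W₀' l) * ∑ i, v (Sum.inr (j, i)) • Z' i := by
  classical
  simp only [LinearMap.mem_ker, Matrix.mulVecLin_apply, funext_iff, Prod.forall, Pi.zero_apply]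
  refine forall_congr' fun j => ?_
  have hrow : ∀ q, (((colonMat L γ γ' φ s).map f) *ᵥ v) (j, q) =
      (∑ i, v (Sum.inl i) * ∑ l, f (φ j l) * g (γ i l q)) -
        ∑ i, v (Sum.inr (j, i)) * ∑ l, f (s l) * g (γ' i l q) := by
    intro q
    simp only [Matrix.mulVec, dotProduct, Matrix.map_apply, colonMat, Matrix.of_apply,
      Fintype.sum_sum_type]
    rw [sub_eq_add_neg, ← Finset.sum_neg_distrib]
    congr 1
    · exact Finset.sum_congr rfl fun i _ => by
        simp only [Sum.elim_inl, map_sum, map_mul, hg]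
        exact mul_comm _ _
    · rw [Fintype.sum_prod_type]
      rw [Finset.sum_eq_single j (fun j' _ hj' => Finset.sum_eq_zero fun i _ => by
        simp [hj']) fun h => absurd (Finset.mem_univ j) h]
      exact Finset.sum_congr rfl fun i _ => by
        simp only [Sum.elim_inr, if_true, map_neg, map_sum, map_mul, hg]
        rw [neg_mul, mul_comm]
  rw [sum_smul_mul_sum_smul Z W₀ E (fun i l q => g (γ i l q)) hp, mul_comm (∑ l, f (s l) • W₀' l),
    sum_smul_mul_sum_smul Z' W₀' E (fun i l q => g (γ' i l q)) hp', ← sub_eq_zero,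
    ← Finset.sum_sub_distrib]
  simp only [← sub_smul, hrow]
  exact ⟨fun h => Finset.sum_eq_zero fun q _ => by rw [h q, zero_smul],
    fun h q => Fintype.linearIndependent_iff.1 hE _ h q⟩

/-- **Colon families.** -/
theorem exists_colon [IsAlgClosed k]
    (hz : ∀ m, X.JRed (z m) (zb m)) (hzli : LinearIndependent k zb)
    (hz' : ∀ m, X.JRed (z' m) (zb' m)) (hz'li : LinearIndependent k zb')
    (he : ∀ m, X.JRed (e m) (eb m)) (heli : LinearIndependent k eb)
    (hw : ∀ m, X.JRed (w m) (wb m)) (hw' : ∀ m, X.JRed (w' m) (wb' m))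
    (hzw : ∀ m l, z m * w l ∈ Submodule.span K (Set.range e))
    (hzw' : ∀ m l, z' m * w' l ∈ Submodule.span K (Set.range e))
    (φ : J → W₁ → S) (s : W₂ → S) (hs : ∀ i, famb L wb' s i ≠ 0)
    (p₀ : P) (U : P → Submodule K F) {d : ℕ} (hd : ∀ p, d ≤ Module.finrank K (U p))
    (hU : ∀ p, ∀ h ∈ U p, h ∈ Submodule.span K (Set.range z) ∧
      ∀ j, ∃ y ∈ Submodule.span K (Set.range z'), h * fam L w (φ j) p = fam L w' s p * y)
    (W : Submodule k (∀ i, Fk i)) [Module.Finite k W] (hW : Module.finrank k W ≤ d)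
    (hres : ∀ H ∈ Submodule.span k (Set.range zb),
      (∀ j, ∃ Y ∈ Submodule.span k (Set.range zb'), H * famb L wb (φ j) = famb L wb' s * Y) →
      H ∈ W) :
    ∃ a : Fin d → I₁ → S, (∀ p, Submodule.span K (Set.range fun n => fam L z (a n) p) = U p) ∧
      LinearIndependent k (fun n => famb L zb (a n)) ∧
      Submodule.span k (Set.range fun n => famb L zb (a n)) = W := by
  classical
  obtain ⟨γ, hγ, hγb⟩ := exists_mul_coeff hz hw he heli hzw
  obtain ⟨γ', hγ', hγ'b⟩ := exists_mul_coeff hz' hw' he heli hzw'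
  let μ := I₁ ⊕ (J × I₂)
  let M : Matrix (J × I₃) μ S := colonMat L γ γ' φ s
  have hKp := fun p => mem_ker_colonMat L γ γ' φ s (L.ev p) z z' w w' e A.subtype (L.ev_const p)
    hγ hγ' (linearIndependent_jred he heli)
  have hKb := mem_ker_colonMat L γ γ' φ s L.res zb zb' wb wb' eb X.π L.res_const hγb hγ'b heli
  have hsne : ∀ p, fam L w' s p ≠ 0 := fun p =>
    (jred_fam L hw' s p (Classical.arbitrary ι)).ne_zero (hs _)
  have hzK := linearIndependent_jred hz hzli
  have hz'K := linearIndependent_jred hz' hz'li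
  -- projections
  let prK : (μ → K) →ₗ[K] F :=
    Fintype.linearCombination K z ∘ₗ LinearMap.funLeft K K Sum.inl
  let prk : (μ → k) →ₗ[k] (∀ i, Fk i) :=
    Fintype.linearCombination k zb ∘ₗ LinearMap.funLeft k k Sum.inl
  have hprK : ∀ v, prK v = ∑ i, v (Sum.inl i) • z i := fun v => rfl
  have hprk : ∀ v, prk v = ∑ i, v (Sum.inl i) • zb i := fun v => rfl
  have hinjK : ∀ p, Disjoint (LinearMap.ker (M.map (L.ev p)).mulVecLin) (LinearMap.ker prK) := by
    intro p
    rw [Submodule.disjoint_def]
    intro v hv hv0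
    rw [LinearMap.mem_ker, hprK] at hv0
    funext m
    rcases m with i | ⟨j, i⟩
    · exact Fintype.linearIndependent_iff.1 hzK _ hv0 i
    · have h := (hKp p v).1 hv j
      rw [hv0, zero_mul, eq_comm, mul_eq_zero] at h
      exact Fintype.linearIndependent_iff.1 hz'K (fun i => v (Sum.inr (j, i)))
        (h.resolve_left (hsne p)) i
  have hinjk : Disjoint (LinearMap.ker (M.map L.res).mulVecLin) (LinearMap.ker prk) := by
    rw [Submodule.disjoint_def]
    intro v hv hv0
    rw [LinearMap.mem_ker, hprk] at hv0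
    funext m
    rcases m with i | ⟨j, i⟩
    · exact Fintype.linearIndependent_iff.1 hzli _ hv0 i
    · have h := (hKb v).1 hv j
      rw [hv0, zero_mul, eq_comm] at h
      refine Fintype.linearIndependent_iff.1 hz'li (fun i => v (Sum.inr (j, i)))
        (funext fun i' => ?_) i
      have h' := congrFun h i'
      rw [Pi.mul_apply, Pi.zero_apply, mul_eq_zero] at h'
      exact h'.resolve_left (hs i')
  have hUp : ∀ p, U p ≤ (LinearMap.ker (M.map (L.ev p)).mulVecLin).map prK := by
    intro p h hh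
    obtain ⟨hhz, hy⟩ := hU p h hh
    obtain ⟨c, hc⟩ := (Submodule.mem_span_range_iff_exists_fun K).1 hhz
    choose y hy hye using hy
    choose b hb using fun j => (Submodule.mem_span_range_iff_exists_fun K).1 (hy j)
    refine ⟨Sum.elim c fun ji => b ji.1 ji.2, (hKp p _).2 fun j => ?_, ?_⟩
    · simp only [Sum.elim_inl, Sum.elim_inr]
      rw [hc, hb]
      exact hye j
    · rw [hprK]
      simpa using hc
  have hWb : (LinearMap.ker (M.map L.res).mulVecLin).map prk ≤ W := by
    rintro _ ⟨v, hv, rfl⟩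
    rw [hprk]
    exact hres _ ((Submodule.mem_span_range_iff_exists_fun k).2 ⟨_, rfl⟩) fun j =>
      ⟨_, (Submodule.mem_span_range_iff_exists_fun k).2 ⟨_, rfl⟩, (hKb v).1 hv j⟩
  have hge : ∀ p, d ≤ Module.finrank K (LinearMap.ker (M.map (L.ev p)).mulVecLin) := fun p => by
    haveI : Module.Finite K ((LinearMap.ker (M.map (L.ev p)).mulVecLin).map prK) :=
      Module.Finite.map _ _
    rw [← finrank_map_of_disjoint _ prK (hinjK p)]
    exact (hd p).trans (Submodule.finrank_mono (hUp p))
  have hle : Module.finrank k (LinearMap.ker (M.map L.res).mulVecLin) ≤ d := by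
    rw [← finrank_map_of_disjoint _ prk hinjk]
    exact (Submodule.finrank_mono hWb).trans hW
  have heq : ∀ p, Module.finrank K (LinearMap.ker (M.map (L.ev p)).mulVecLin) = d := fun p =>
    le_antisymm ((L.finrank_ker_ev_le M p).trans hle) (hge p)
  have heqb : Module.finrank k (LinearMap.ker (M.map L.res).mulVecLin) = d :=
    le_antisymm hle ((hge p₀).trans (L.finrank_ker_ev_le M p₀))
  obtain ⟨a, ha, hali, hab⟩ := L.exists_kernel X.π_eq_zero M d heq heqb
  refine ⟨fun n i => a n (Sum.inl i), fun p => ?_, ?_, ?_⟩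
  · have hmap : (LinearMap.ker (M.map (L.ev p)).mulVecLin).map prK =
        Submodule.span K (Set.range fun n => fam L z (fun i => a n (Sum.inl i)) p) := by
      rw [← ha, Submodule.map_span, ← Set.range_comp]
      rfl
    haveI : Module.Finite K ((LinearMap.ker (M.map (L.ev p)).mulVecLin).map prK) :=
      Module.Finite.map _ _
    rw [← hmap]
    exact (Submodule.eq_of_le_of_finrank_le (hUp p) (by
      rw [finrank_map_of_disjoint _ prK (hinjK p), heq]; exact hd p)).symm
  · rw [← hab] at hinjk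
    exact hali.map hinjk
  · have hmap : (LinearMap.ker (M.map L.res).mulVecLin).map prk =
        Submodule.span k (Set.range fun n => famb L zb (fun i => a n (Sum.inl i))) := by
      rw [← hab, Submodule.map_span, ← Set.range_comp]
      rfl
    rw [← hmap]
    exact Submodule.eq_of_le_of_finrank_le hWb (by rw [finrank_map_of_disjoint _ prk hinjk, heqb]; exact hW)

end FA.ModField.SemiFibre
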