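import Fermat.Agent.ModField.Semistable.Formal.Coords
import Fermat.Agent.FlatModel.Echelon
import Fermat.Agent.FlatModel.Setup

/-!
# Fixed configurations on a semistable special fibre

For semilinear automorphisms acting trivially on the reductions, with fixed places over infinitely
many points of every component, there is an embedding divisor with a basis of its space, all
fixed.
-/

set_option autoImplicit false
set_option linter.style.haveILetI false
set_option linter.unusedSectionVars false
set_option maxHeartbeats 800000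

noncomputable section

open Matrix

namespace FA.ModField.SemiFibre

open AlgebraicCurve FA.Curve FA.CurveRed

variable {K F k : Type*} [Field K] [Field F] [Algebra K F] [Field k] {ι : Type*} [Fintype ι]
  {Fk : ι → Type*} [∀ i, Field (Fk i)] [∀ i, Algebra k (Fk i)] {A : ValuationSubring K}
  {β σ : Type*} [Fintype β] [Fintype σ] (X : SemiFibre K F k Fk A β σ)

/-- A semilinear automorphism acting trivially on the special fibre. -/
structure Stable (τ : SemilinearAut K F) : Prop where
  red : ∀ i f r, (X.C i).Red f r → (X.C i).Red (τ • f) r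
  tube : ∀ P, X.spl (τ • P) = none → X.spl P = none

/-- The smooth points with a place fixed by `T` over them. -/
def fixGood (T : Set (SemilinearAut K F)) (i : ι) : Set (Place k (Fk i)) :=
  {Q | (∀ b, X.br b ≠ ⟨i, Q⟩) ∧ ∃ P, X.spl P = some ⟨i, Q⟩ ∧ ∀ τ ∈ T, τ • P = P}

variable {X}

theorem Stable.clean_smul {τ : SemilinearAut K F} (h : X.Stable τ) {E : Divisor K F}
    (hE : X.Clean E) : X.Clean (τ • E) := fun P hP => by
  rw [SemilinearAut.divisor_smul_apply]
  exact hE _ (h.tube _ (by rwa [smul_inv_smul]))

theorem Stable.jred {τ : SemilinearAut K F} (h : X.Stable τ) {f : F} {H : ∀ i, Fk i}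
    (hf : X.JRed f H) : X.JRed (τ • f) H := fun i => h.red i f _ (hf i)

theorem hasValue_smul' (g : SemilinearAut K F) {P : Place K F} {f : F} {c : K}
    (h : HasValue P f c) : HasValue (g • P) (g • f) (SemilinearAut.baseAut g c) := by
  have e : g • f - algebraMap K F (SemilinearAut.baseAut g c) = g • (f - algebraMap K F c) := by
    rw [smul_sub, SemilinearAut.smul_algebraMap]
  show AtLeast _ _ _
  rw [e]
  rcases h with h0 | h1
  · exact Or.inl (by rw [h0]; exact smul_zero _)
  · exact Or.inr (by rw [SemilinearAut.ord_smul]; exact h1)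

variable [IsAlgClosed K] [IsAlgClosed k] [Nonempty ι] (hF : IsFunctionField K F)
  (hk : ∀ i, IsFunctionField k (Fk i))

include hF hk

/-- Stable automorphisms do not move the specialisation of divisors. -/
theorem Stable.push_smul {τ : SemilinearAut K F} (h : X.Stable τ) {D : Divisor K F}
    (hD : X.Clean D) : X.push (τ • D) = X.push D := by
  classical
  obtain ⟨N, hN⟩ := exists_big_bound X.br hk
  have big : ∀ E : Divisor K F, X.Clean E → (∀ i, (N : ℤ) + 1 ≤ Divisor.degree (X.push E i)) →
      X.push (τ • E) = X.push E := by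
    intro E hE hd
    have hbigE : IsBig X.br (X.push E) := hN _ (X.avoids_push E) fun i => by linarith [hd i]
    have hle : ∀ i Q, X.push E i Q ≤ X.push (τ • E) i Q := fun i Q => by
      by_cases hQ : ∀ b, X.br b ≠ ⟨i, Q⟩
      · obtain ⟨H, hH, hH0, hord⟩ := X.exists_exact hk hQ hbigE (hN _ (fun b => by
          have hav := X.avoids_push E b
          have hbQ := hQ b
          revert hav hbQ
          generalize X.br b = y
          obtain ⟨i', Q'⟩ := y
          intro hav hbQ
          rcases eq_or_ne i' i with rfl | hi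
          · rw [Function.update_self, Finsupp.sub_apply, hav,
              Finsupp.single_eq_of_ne fun he : Q' = Q => hbQ (by rw [he]), sub_zero]
          · rw [Function.update_of_ne hi]; exact hav) fun i' => by
          have := hd i'
          rcases eq_or_ne i' i with rfl | hi
          · rw [Function.update_self, map_sub, Divisor.degree_single, (hk i').deg_eq_one]
            push_cast
            omega
          · rw [Function.update_of_ne hi]; omega)
        obtain ⟨f, hf, hred⟩ := X.exists_lift hF hk hE hbigE hH
        have hmem := (X.jred_mem_gluedSpace hF (h.clean_smul hE)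
          (FlatModel.smul_mem_riemannRochSpace τ hf) (h.jred hred)).1 i
        have := (atLeast_iff hH0).1 (FA.Curve.mem_riemannRochSpace.1 hmem Q)
        omega
      · push Not at hQ
        obtain ⟨b, hb⟩ := hQ
        have h1 := X.avoids_push E b
        have h2 := X.avoids_push (τ • E) b
        rw [hb] at h1 h2
        dsimp only at h1 h2
        omega
    have hnn : ∀ i, 0 ≤ X.push (τ • E) i - X.push E i := fun i =>
      sub_nonneg.2 (Finsupp.le_def.2 (hle i))
    have hsum : ∑ i, Divisor.degree (X.push (τ • E) i - X.push E i) = 0 := by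
      simp only [map_sub, Finset.sum_sub_distrib]
      rw [X.degree_push hF hk E hE, X.degree_push hF hk _ (h.clean_smul hE),
        SemilinearAut.degree_smul, sub_self]
    refine funext fun i => Finsupp.ext fun Q => ?_
    have h0 := (Finset.sum_eq_zero_iff_of_nonneg fun i _ => degree_nonneg (hk i) (hnn i)).1 hsum i
      (Finset.mem_univ i)
    rw [degree_eq_sum (hk i), Finsupp.sum,
      Finset.sum_eq_zero_iff_of_nonneg fun Q _ => Finsupp.le_def.1 (hnn i) Q] at h0
    by_contra hne
    have h1 := h0 Q (Finsupp.mem_support_iff.2 (by rw [Finsupp.sub_apply]; exact sub_ne_zero.2 hne))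
    rw [Finsupp.sub_apply, sub_eq_zero] at h1
    exact hne h1
  obtain ⟨S, hS, -, hdeg⟩ := X.exists_points hk
    (N + 1 + ∑ i, (Divisor.degree (X.push D i)).natAbs) ∅
  obtain ⟨P, -, hc, hp⟩ := X.exists_over hk hS
  set M := ∑ x : S, Finsupp.single (P x) (1 : ℤ)
  have hle : ∀ i, (Divisor.degree (X.push D i)).natAbs ≤
      ∑ i, (Divisor.degree (X.push D i)).natAbs := fun i =>
    Finset.single_le_sum (f := fun i => (Divisor.degree (X.push D i)).natAbs)
      (fun _ _ => Nat.zero_le _) (Finset.mem_univ i)
  have hM : ∀ i, (N : ℤ) + 1 + (Divisor.degree (X.push D i)).natAbs ≤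
      Divisor.degree (X.push M i) := fun i => by
    have h1 := hdeg i
    have h2 := hle i
    rw [hp]
    omega
  have h1 := big (D + M) (hD.add hc) fun i => by
    rw [push_add, map_add]
    have := hM i
    omega
  have h2 := big M hc fun i => by have := hM i; omega
  funext i
  have h3 := congrFun h1 i
  rw [smul_add, push_add, push_add, congrFun h2 i] at h3
  exact add_right_cancel h3

/-- Stable automorphisms preserve the discs. -/
theorem Stable.spl_smul {τ : SemilinearAut K F} (h : X.Stable τ) {P : Place K F}
    {x : Σ i, Place k (Fk i)} (hP : X.spl P = some x) : X.spl (τ • P) = some x := by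
  classical
  obtain ⟨i, Q⟩ := x
  have h1 := DFunLike.congr_fun
    (congrFun (h.push_smul hF hk (X.clean_single hP (1 : ℤ))) i) Q
  rw [SemilinearAut.smul_single, X.push_single_same hP, push_apply, Finsupp.mapDomain_single,
    Finsupp.single_eq_same, Finsupp.single_apply] at h1
  by_contra hne
  rw [if_neg hne] at h1
  exact zero_ne_one h1

omit hF [IsAlgClosed K] [IsAlgClosed k] [Nonempty ι] hk in
/-- Many good points of every component avoiding a finite set. -/
theorem exists_good_points {T : Set (SemilinearAut K F)} (hlift : ∀ i, (X.fixGood T i).Infinite)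
    (N : ℕ) (avoid : Finset (Σ i, Place k (Fk i))) :
    ∃ S : Finset (Σ i, Place k (Fk i)), (∀ x ∈ S, x.2 ∈ X.fixGood T x.1) ∧ Disjoint S avoid ∧
      ∀ i, (S.preimage (Sigma.mk i) sigma_mk_injective.injOn).card = N := by
  classical
  have hpick : ∀ i, ∃ s : Finset (Place k (Fk i)), s.card = N ∧
      ∀ Q ∈ s, Q ∈ X.fixGood T i ∧ (⟨i, Q⟩ : Σ i, Place k (Fk i)) ∉ avoid := fun i => by
    obtain ⟨s, hs, hcard⟩ := ((hlift i).sdiff (avoid.finite_toSet.preimage
      (f := fun Q => (⟨i, Q⟩ : Σ i, Place k (Fk i)))
      (fun _ _ _ _ h => eq_of_heq (Sigma.mk.inj h).2))).exists_subset_card_eq N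
    exact ⟨s, hcard, fun Q hQ => ⟨(hs hQ).1, (hs hQ).2⟩⟩
  choose s hs hsmem using hpick
  refine ⟨Finset.univ.sigma s, fun x hx => (hsmem x.1 x.2 (Finset.mem_sigma.1 hx).2).1,
    Finset.disjoint_left.2 fun x hx hxa => (hsmem x.1 x.2 (Finset.mem_sigma.1 hx).2).2 hxa,
    fun i => ?_⟩
  rw [show (Finset.univ.sigma s).preimage (Sigma.mk i) sigma_mk_injective.injOn = s i by
    ext Q; simp, hs]

/-- **A fixed embedding.** -/
theorem exists_ambient {T : Set (SemilinearAut K F)} (hT : ∀ τ ∈ T, X.Stable τ)
    (hlift : ∀ i, (X.fixGood T i).Infinite) :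
    ∃ G : X.Ambient, (∀ τ ∈ T, τ • G.B = G.B) ∧ (∀ τ ∈ T, ∀ m, τ • G.z m = G.z m) ∧
      ∃ avoid : Finset (Σ i, Place k (Fk i)),
        ∀ S : Finset (Σ i, Place k (Fk i)), Disjoint S avoid → X.Off S G.B := by
  classical
  obtain ⟨N, hN⟩ := exists_big_bound X.br hk
  set N' := N + 4 * genus K F + 4 with hN'
  choose Q hQ using fun i => (hlift i).nonempty
  choose Pl hPi hPifix using fun i => (hQ i).2
  let avoid : Finset (Σ i, Place k (Fk i)) := Finset.univ.image fun i => ⟨i, Q i⟩
  set B : Divisor K F := ∑ i, Finsupp.single (Pl i) (N' : ℤ) with hBdef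
  have hclean : X.Clean B := fun R hR => by
    rw [hBdef, Finset.sum_apply']
    exact Finset.sum_eq_zero fun i _ => X.clean_single (hPi i) _ R hR
  have hpush : ∀ i, X.push B i = Finsupp.single (Q i) (N' : ℤ) := fun i => by
    ext R
    rw [push_apply, hBdef, Finsupp.mapDomain_finsetSum, Finset.sum_apply']
    simp only [Finsupp.mapDomain_single, hPi]
    rw [Finset.sum_eq_single i (fun j _ hj => Finsupp.single_eq_of_ne fun he =>
      hj (congrArg Sigma.fst (Option.some_injective _ he)).symm)
      (fun hi => absurd (Finset.mem_univ i) hi), Finsupp.single_apply, Finsupp.single_apply]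
    exact if_congr ⟨fun he => eq_of_heq (Sigma.mk.inj (Option.some_injective _ he)).2,
      fun he => by rw [he]⟩ rfl rfl
  have hdeg : ∀ i, Divisor.degree (X.push B i) = N' := fun i => by
    rw [hpush, Divisor.degree_single, (hk i).deg_eq_one]; simp
  have hBfix : ∀ τ ∈ T, τ • B = B := fun τ hτ => by
    rw [hBdef, Finset.smul_sum]
    exact Finset.sum_congr rfl fun i _ => by rw [SemilinearAut.smul_single, hPifix i τ hτ]
  have hB0 : ∀ (x : Σ i, Place k (Fk i)) (R : Place K F), x ∉ avoid → X.spl R = some x →
      B R = 0 := fun x R hx hR => by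
    rw [hBdef, Finset.sum_apply']
    refine Finset.sum_eq_zero fun i _ => Finsupp.single_eq_of_ne fun he => hx ?_
    rw [he, hPi i] at hR
    exact Finset.mem_image.2 ⟨i, Finset.mem_univ i, Option.some_injective _ hR⟩
  obtain ⟨n, e, eb, he, hli, hspan, hspanb⟩ := X.exists_jbasis hF hk hclean
    (hN _ (X.avoids_push B) fun i => by rw [hdeg]; omega)
  -- values at further fixed places
  obtain ⟨S, hSgood, hSdisj, hScard⟩ := exists_good_points hlift (N' + 1) avoid
  choose PS hPS hPSfix using fun x : S => (hSgood x.1 x.2).2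
  have hnp : ∀ x : S, ∀ f ∈ riemannRochSpace B, X.NoPole x.1 f := fun x f hf R hR => by
    have := FA.Curve.mem_riemannRochSpace.1 hf R
    rwa [hB0 x.1 R (Finset.disjoint_left.1 hSdisj x.2) hR, neg_zero] at this
  have heB : ∀ m, e m ∈ riemannRochSpace B := fun m =>
    hspan ▸ Submodule.subset_span ⟨m, rfl⟩
  choose c hc using fun (m : Fin n) (x : S) =>
    exists_hasValue hF (hnp x _ (heB m) (PS x) (hPS x))
  have hcred : ∀ m (x : S), ∃ hcA : c m x ∈ A,
      HasValue x.1.2 (eb m x.1.1) (X.π ⟨c m x, hcA⟩) := fun m x =>
    X.hasValue_red hF (he m x.1.1) (hSgood x.1 x.2).1 (hnp x _ (heB m)) (hPS x) (hc m x)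
  choose hcA hcv using hcred
  let C : Fin n → S → A := fun m x => ⟨c m x, hcA m x⟩
  have hrows : LinearIndependent k fun m (x : S) => X.π (C m x) := by
    rw [Fintype.linearIndependent_iff]
    intro b hb
    refine Fintype.linearIndependent_iff.1 hli b ?_
    have hH : ∑ m, b m • eb m ∈ X.gluedSpace (X.push B) :=
      Submodule.sum_mem _ fun m _ => Submodule.smul_mem _ _ (hspanb ▸ Submodule.subset_span ⟨m, rfl⟩)
    refine funext fun i => ?_
    rw [Pi.zero_apply]
    set s := S.preimage (Sigma.mk i) sigma_mk_injective.injOn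
    set T' : Divisor k (Fk i) := X.push B i - compDiv S i
    have hmem : (∑ m, b m • eb m) i ∈ riemannRochSpace T' := by
      rw [FA.Curve.mem_riemannRochSpace]
      intro R
      simp only [T', Finsupp.sub_apply, compDiv_apply]
      split_ifs with hR
      · have h0 : X.push B i R = 0 := by
          rw [hpush]
          exact Finsupp.single_eq_of_ne fun he' => Finset.disjoint_left.1 hSdisj hR
            (Finset.mem_image.2 ⟨i, Finset.mem_univ i, by rw [he']⟩)
        have h1 := congrFun hb ⟨_, hR⟩
        simp only [Finset.sum_apply, Pi.smul_apply, smul_eq_mul, Pi.zero_apply] at h1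
        have h2 : ∀ t : Finset (Fin n), HasValue R (∑ m ∈ t, b m • eb m i)
            (∑ m ∈ t, b m * X.π (C m ⟨_, hR⟩)) := fun t => by
          induction t using Finset.induction_on with
          | empty => simpa using hasValue_algebraMap R (0 : k)
          | @insert a t ha ih =>
            rw [Finset.sum_insert ha, Finset.sum_insert ha, Algebra.smul_def]
            exact ((hcv a ⟨_, hR⟩).smul (b a)).add ih
        have h3 := h2 Finset.univ
        rw [h1, hasValue_zero_iff] at h3
        rw [h0, zero_sub, neg_neg, Finset.sum_apply]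
        simpa only [Pi.smul_apply] using h3
      · rw [sub_zero]
        exact FA.Curve.mem_riemannRochSpace.1 (hH.1 i) R
    have hneg : Divisor.degree T' < 0 := by
      simp only [T', map_sub]
      rw [hdeg, degree_compDiv hk, hScard]
      push_cast
      omega
    haveI := finite_riemannRochSpace (hk i) T'
    have h4 := ell_eq_zero_of_degree_neg (hk i) hneg
    rw [ell, Nat.cast_eq_zero, Submodule.finrank_eq_zero] at h4
    rw [h4, Submodule.mem_bot] at hmem
    exact hmem
  obtain ⟨J, hJ⟩ := FA.FlatModel.exists_pivots (fun m (x : S) => X.π (C m x)) hrows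
  let M : Matrix (Fin n) (Fin n) A := Matrix.of fun m l => C m (J l)
  have hu : IsUnit M.det := FA.FlatModel.isUnit_of_map_ne_zero X.π_eq_zero (by
    rw [RingHom.map_det, RingHom.mapMatrix_apply]; exact hJ.ne_zero)
  let W : Matrix (Fin n) (Fin n) A := M⁻¹
  let z : Fin n → F := fun l => ∑ m, ((W l m : A) : K) • e m
  let zb : Fin n → ∀ i, Fk i := fun l => ∑ m, X.π (W l m) • eb m
  have hz : ∀ l, X.JRed (z l) (zb l) := fun l => jred_sum fun m _ => (he m).smul (W l m).2
  have hMW : ∀ m m', ∑ l, ((M m l : A) : K) * (W l m' : A) = if m = m' then 1 else 0 := fun m m' => by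
    have h1 := congrArg (fun a : A => (a : K))
      (congrFun (congrFun (Matrix.mul_nonsing_inv M hu) m) m')
    simp only [Matrix.mul_apply, AddSubmonoidClass.coe_finsetSum, MulMemClass.coe_mul,
      Matrix.one_apply] at h1
    rw [h1]
    split_ifs <;> rfl
  have hez : ∀ m, ∑ l, ((M m l : A) : K) • z l = e m := fun m => by
    simp only [z, Finset.smul_sum, smul_smul]
    rw [Finset.sum_comm]
    simp only [← Finset.sum_smul, hMW, ite_smul, one_smul, zero_smul, Finset.sum_ite_eq,
      Finset.mem_univ, if_true]
  have hezb : ∀ m, ∑ l, X.π (M m l) • zb l = eb m := fun m =>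
    (JRed.unique (hez m ▸ he m) (jred_sum fun l _ => (hz l).smul (M m l).2)).symm
  have hspz : Submodule.span K (Set.range z) = riemannRochSpace B := by
    rw [← hspan]
    refine le_antisymm (Submodule.span_le.2 (Set.range_subset_iff.2 fun l =>
      Submodule.sum_mem _ fun m _ => Submodule.smul_mem _ _ (Submodule.subset_span ⟨m, rfl⟩)))
      (Submodule.span_le.2 (Set.range_subset_iff.2 fun m => hez m ▸
        Submodule.sum_mem _ fun l _ => Submodule.smul_mem _ _ (Submodule.subset_span ⟨l, rfl⟩)))
  have hspzb : Submodule.span k (Set.range zb) = X.gluedSpace (X.push B) := by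
    rw [← hspanb]
    refine le_antisymm (Submodule.span_le.2 (Set.range_subset_iff.2 fun l =>
      Submodule.sum_mem _ fun m _ => Submodule.smul_mem _ _ (Submodule.subset_span ⟨m, rfl⟩)))
      (Submodule.span_le.2 (Set.range_subset_iff.2 fun m => hezb m ▸
        Submodule.sum_mem _ fun l _ => Submodule.smul_mem _ _ (Submodule.subset_span ⟨l, rfl⟩)))
  have hzli : LinearIndependent k zb := by
    rw [linearIndependent_iff_card_eq_finrank_span, Set.finrank, hspzb, ← hspanb,
      finrank_span_eq_card hli]
  have hval : ∀ (g : Fin n → K) (x : S), HasValue (PS x) (∑ m, g m • e m) (∑ m, g m * c m x) :=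
    fun g x => by
      have key : ∀ t : Finset (Fin n),
          HasValue (PS x) (∑ m ∈ t, g m • e m) (∑ m ∈ t, g m * c m x) := fun t => by
        induction t using Finset.induction_on with
        | empty => simpa using hasValue_algebraMap (PS x) (0 : K)
        | @insert a t ha ih =>
          rw [Finset.sum_insert ha, Finset.sum_insert ha, Algebra.smul_def]
          exact ((hc a x).smul (g a)).add ih
      exact key _
  have hWM : ∀ l l', ∑ m, ((W l m : A) : K) * c m (J l') = if l = l' then 1 else 0 := fun l l' => by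
    have h1 := congrArg (fun a : A => (a : K))
      (congrFun (congrFun (Matrix.nonsing_inv_mul M hu) l) l')
    simp only [Matrix.mul_apply, AddSubmonoidClass.coe_finsetSum, MulMemClass.coe_mul,
      Matrix.one_apply] at h1
    refine h1.trans ?_
    split_ifs <;> rfl
  refine ⟨⟨N, hN, B, hclean, fun i => by rw [hdeg, hN']; push_cast; omega, n, z, zb, hz, hzli,
    hspz, hspzb⟩, hBfix, fun τ hτ l => ?_, avoid, fun S' hS' R x hx hR =>
      hB0 x R (Finset.disjoint_left.1 hS' hx) hR⟩
  have hzB : ∀ l, z l ∈ riemannRochSpace B := fun l => hspz ▸ Submodule.subset_span ⟨l, rfl⟩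
  have hmem : τ • z l ∈ riemannRochSpace B := hBfix τ hτ ▸
    FlatModel.smul_mem_riemannRochSpace τ (hzB l)
  rw [← hspan, Submodule.mem_span_range_iff_exists_fun] at hmem
  obtain ⟨g, hg⟩ := hmem
  have hv : ∀ l', ∑ m, g m * c m (J l') = if l = l' then 1 else 0 := fun l' => by
    have h1 := hval (fun m => ((W l m : A) : K)) (J l')
    rw [hWM] at h1
    have h2 := hasValue_smul' τ h1
    rw [hPSfix (J l') τ hτ] at h2
    have h3 := hval g (J l')
    rw [hg] at h3
    rw [h3.unique h2]
    split_ifs <;> simp
  show τ • z l = z l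
  rw [← hg]
  have : g = fun m => ((W l m : A) : K) := funext fun m' => by
    calc g m' = ∑ m, g m * (if m = m' then (1 : K) else 0) := by simp
      _ = ∑ l', (∑ m, g m * c m (J l')) * ((W l' m' : A) : K) := by
          simp only [Finset.sum_mul, mul_assoc, ← hMW, Finset.mul_sum]
          rw [Finset.sum_comm]
          rfl
      _ = _ := by simp [hv]
  rw [this]

end FA.ModField.SemiFibre
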