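import Fermat.Agent.ModField.Semistable.Formal.Conn
import Fermat.Agent.ModField.Semistable.Formal.Lift
import Fermat.Agent.ModField.Semistable.FibreAt
import Fermat.Agent.ModField.Semistable.WSquare
import Fermat.Agent.LocalDef.ConnGen
import Fermat.Agent.FlatModel.Modular

/-!
# The connected part of `J₀(M q)[qᵉ]` at `q`

Given the special fibre, every finite group of `qᵉ`-torsion classes killed by the reductions to
both components has a connected model at a place over `q`.
-/

set_option autoImplicit false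
set_option linter.style.haveILetI false
set_option linter.unusedSectionVars false
set_option synthInstance.maxHeartbeats 400000
set_option maxHeartbeats 1600000

noncomputable section

namespace FA.ModField

open ModularCurve AlgebraicCurve FA.Curve FA.CurveRed FA.CurveRed.Modular FA.LocalDef
open scoped IntermediateField

local notation "Qb" => AlgebraicClosure ℚ
local notation "GQ" => AlgebraicClosure ℚ ≃ₐ[ℚ] AlgebraicClosure ℚ

variable (M : ℕ) [NeZero M] (q : ℕ) [hq : Fact q.Prime] [hq0 : NeZero q]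

section General

variable {L : Type} [Field L] [Algebra ℚ L] [Algebra L ℂ] [IsAlgClosed L]
variable (A : ValuationSubring L) {k : Type} [Field k] [IsAlgClosed k] [CharP k q] {π : A →+* k}
  {hπs : Function.Surjective π} {hπ0 : ∀ a : A, π a = 0 ↔ A.valuation a < 1} {hqM : ¬ q ∣ M}
  {harch : ∀ c : L, c ≠ 0 → ∃ m : ℕ, A.valuation ((q : L) ^ m) < A.valuation c}

theorem cInf_red_levelJ :
    (cInf M q A π hπs hπ0 hqM harch).Red (levelJ (M * q) L) (jBar k M) := by
  rw [cInf_red]
  refine ⟨jqModC A, 1, ?_, ?_, ?_, ?_, ?_⟩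
  · rw [coeffMap_jqModC, ← coe_levelJ (M * q) L]; exact SetLike.coe_mem _
  · rw [map_one]; exact one_mem _
  · rw [map_one]; exact one_ne_zero
  · rw [map_one, mul_one, coe_levelJ, coeffMap_jqModC]
  · rw [map_one, mul_one, coeffMap_jqModC]; rfl

theorem galAut_levelJ (N : ℕ) [NeZero N] (σ : L ≃ₐ[ℚ] L) :
    galAut N L σ • levelJ N L = levelJ N L := Subtype.ext (by
  show coeffMap (σ : L →+* L) ((levelJ N L : levelField N L) : LaurentSeries L) = _
  rw [coe_levelJ, coeffMap_jqModC])

variable {M q A}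
variable (D : FibreData M q A π hπs hπ0 hqM harch) {s : L ≃ₐ[ℚ] L}

theorem FibreData.stable (hs : InducesOn L π s (RingHom.id k)) :
    D.X.Stable (galAut (M * q) L s) := by
  obtain ⟨S, hS, -, hθ, -⟩ := D.symm_inertia s hs
  refine ⟨fun i f r h => ?_, fun P h => ?_⟩
  · have := S.intertwines i f r h
    rwa [hS, hθ i] at this
  · exact S.tube P (hS ▸ h)

/-- **Infinitely many fixed places over both components.** -/
theorem FibreData.infinite_fixGood (G : Set (L ≃ₐ[ℚ] L))
    (hG : ∀ s ∈ G, InducesOn L π s (RingHom.id k))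
    (hres : ∀ b : k, ∃ a : A, π a = b ∧ ∀ s ∈ G, s (a : L) = a) (i : Fin 2) :
    (D.X.fixGood ((fun s => galAut (M * q) L s) '' G) i).Infinite := by
  have hF := isFunctionField_level L (M * q)
  have hk : ∀ _ : Fin 2, IsFunctionField k (modularFunctionFieldFullC k M) := fun _ =>
    isFunctionField_fullC k M
  have hT : ∀ τ ∈ (fun s => galAut (M * q) L s) '' G, D.X.Stable τ := by
    rintro _ ⟨s, hs, rfl⟩
    exact D.stable (hG s hs)
  have hπ : ∀ b : k, ∃ a : A, D.X.π a = b ∧
      ∀ τ ∈ (fun s => galAut (M * q) L s) '' G, SemilinearAut.baseAut τ (a : L) = a := fun b => by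
    obtain ⟨a, ha, hfix⟩ := hres b
    refine ⟨a, ?_, ?_⟩
    · rw [← ha, ← D.X.pi_eq 0, D.C_inf, cInf_pi]
    · rintro _ ⟨s, hs, rfl⟩
      exact hfix s hs
  haveI : Algebra.IsSeparable k⟮jBar k M⟯ (modularFunctionFieldFullC k M) :=
    isSeparable_down (jBar k M) (jBar_transcendental k M)
      (theta_ne_zero_of_coeff jqModC_coeff_neg_one)
  have h0 : (D.X.C 0).Red (levelJ (M * q) L) (jBar k M) := by
    rw [D.C_inf]; exact cInf_red_levelJ M q A
  have h1 : (D.X.C 1).Red (wLvl M q L hqM (levelJ (M * q) L)) (jBar k M) := by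
    rw [D.C_zero, cZero_red, wLvl_wLvl]; exact cInf_red_levelJ M q A
  fin_cases i
  · exact SemiFibre.infinite_fixGood hF hk hT 0 h0 (jBar_transcendental k M)
      (by rintro _ ⟨s, hs, rfl⟩; exact galAut_levelJ (M * q) s) hπ
  · exact SemiFibre.infinite_fixGood hF hk hT 1 h1 (jBar_transcendental k M)
      (by rintro _ ⟨s, hs, rfl⟩; rw [← wLvl_gal, galAut_levelJ]) hπ

end General

variable {M q} [Algebra Qb ℂ] {A : ValuationSubring Qb}
  [IsAlgClosed (IsLocalRing.ResidueField A)] [CharP (IsLocalRing.ResidueField A) q]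
  {hπ0 : ∀ a : A, IsLocalRing.residue A a = 0 ↔ A.valuation a < 1} {hqM : ¬ q ∣ M}
  {harch : ∀ c : Qb, c ≠ 0 → ∃ m : ℕ, A.valuation ((q : Qb) ^ m) < A.valuation c}
  (D : FibreData M q A (IsLocalRing.residue A) IsLocalRing.residue_surjective hπ0 hqM harch)

/-- **The connected part has a connected model.** -/
theorem FibreData.hasConnModel (hA : A.LiesOverPrime q) (e : ℕ)
    {V : Type} [AddCommGroup V] [Fintype V] (ι : V →+ JZero (M * q)) (hι : Function.Injective ι)
    (hV : ∀ x, ∃ y : D.X.toricKer (isFunctionField_level Qb (M * q)) (q ^ e),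
      ((y : Pic0.torsion Qb (levelField (M * q) Qb) (q ^ e)) : JZero (M * q)) = ι x)
    (act : GQ → V → V) (hact : ∀ σ ∈ A.inertiaSubgroupIn ℚ, ∀ x, ι (act σ x) = σ • ι x) :
    HasConnModel A V act := by
  classical
  set T := (fun s => galAut (M * q) Qb s) '' (A.inertiaSubgroupIn ℚ : Set GQ)
  have hind : ∀ s ∈ (A.inertiaSubgroupIn ℚ : Set GQ),
      InducesOn Qb (IsLocalRing.residue A) s (RingHom.id _) := fun s hs => inducesOn_inertia hs
  obtain ⟨Γ, hΓ, φ, hint, hsep, hconn, hcomul, hT⟩ :=
    SemiFibre.exists_conn_generators (X := D.X) (T := T) (isFunctionField_level Qb (M * q))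
      (fun _ => isFunctionField_fullC (IsLocalRing.ResidueField A) M) SemiFibre.exists_branch
      (pow_ne_zero e hq.out.ne_zero)
      (fun a ha => by
        have h : (a - 1) ^ q ^ e = 0 := by rw [sub_pow_char_pow, ha, one_pow, sub_self]
        exact sub_eq_zero.1 (pow_eq_zero_iff (pow_ne_zero e hq.out.ne_zero) |>.1 h))
      (by rintro _ ⟨s, hs, rfl⟩; exact D.stable (hind s hs))
      (D.infinite_fixGood _ hind fun b => FlatModel.exists_root_lift hq.out hA b) ι hι hV
  exact HasConnModel.of_generators φ hint hsep hconn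
    (fun σ hσ γ x => hT _ ⟨σ, hσ, rfl⟩ (act σ) (hact σ hσ) γ x) hcomul

end FA.ModField
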