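import Fermat.Agent.ModField.Semistable.Formal.Ordinary
import Fermat.Agent.FlatModel.Hecke
import Fermat.Agent.LocalDef.StrictOfPart
import Fermat.Agent.ModField.Semistable.NewformFrobenius

/-!
# Frobenius squares on the part of `J₀(M q)[qᵉ]` killed at level `M`

An operator killed at level `M` has image on which the reductions see the Frobenius at `q` as
`U_q`, whose square is one there; so squares of the decomposition group move this image only
inside the connected part.
-/

set_option autoImplicit false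
set_option linter.style.haveILetI false
set_option linter.unusedSectionVars false
set_option synthInstance.maxHeartbeats 200000
set_option maxHeartbeats 1600000

noncomputable section

namespace FA.ModField

open FA.FlatModel (opImage galImage)
open ModularCurve AlgebraicCurve FA.Curve FA.CurveRed FA.CurveRed.Modular FA.LocalDef FA.JTorsion
  FA.Level

local notation "Qb" => AlgebraicClosure ℚ
local notation "GQ" => AlgebraicClosure ℚ ≃ₐ[ℚ] AlgebraicClosure ℚ

/-- Squares in a group generated by one element, up to elements acting trivially modulo a stable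
subgroup, act trivially as soon as the square of the generator does. -/
theorem sq_sub_mem {G Y : Type} [Group G] [AddCommGroup Y] {R : Type} [CommRing R] [Module R Y]
    (g : G →* Module.End R Y) (W : AddSubgroup Y) {σ : G} (hσW : ∀ y ∈ W, g σ y ∈ W)
    (hσ2 : ∀ y, g σ (g σ y) - y ∈ W) (i : ℕ) {ι η : G} (hι : ∀ y, g ι y - y ∈ W) (hη : g η = 1)
    (y : Y) : g (σ ^ i * ι * η * (σ ^ i * ι * η)) y - y ∈ W := by
  rw [map_mul, Module.End.mul_apply]
  set δ := σ ^ i * ι * η with hδdef
  have hpow : ∀ j, ∀ y ∈ W, g (σ ^ j) y ∈ W := by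
    intro j
    induction j with
    | zero => intro y hy; rwa [pow_zero, map_one]
    | succ j ih => intro y hy; rw [pow_succ, map_mul]; exact ih _ (hσW y hy)
  have h2 : ∀ j, ∀ y, g (σ ^ (2 * j)) y - y ∈ W := by
    intro j
    induction j with
    | zero => intro y; rw [mul_zero, pow_zero, map_one, Module.End.one_apply, sub_self]; exact zero_mem _
    | succ j ih =>
      intro y
      rw [Nat.mul_succ, pow_add, map_mul, Module.End.mul_apply, sq, map_mul, Module.End.mul_apply]
      have := add_mem (ih (g σ (g σ y))) (hσ2 y)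
      rwa [sub_add_sub_cancel] at this
  have hδ : ∀ y, g δ y - g (σ ^ i) y ∈ W := fun y => by
    rw [hδdef, map_mul, map_mul, hη, mul_one, Module.End.mul_apply, ← map_sub]
    exact hpow i _ (hι y)
  have e : g δ (g δ y) - y = (g δ (g δ y) - g (σ ^ i) (g δ y)) +
      g (σ ^ i) (g δ y - g (σ ^ i) y) + (g (σ ^ (2 * i)) y - y) := by
    rw [map_sub, ← Module.End.mul_apply (g (σ ^ i)) (g (σ ^ i)), ← map_mul, ← pow_add, ← two_mul]
    abel
  rw [e]
  exact add_mem (add_mem (hδ _) (hpow i _ (hδ y))) (h2 i y)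

variable [Algebra Qb ℂ]

section Full

variable (N : ℕ) [NeZero N] (S : Finset ℕ) (n : ℕ) [NeZero n]

theorem coe_inclusion_toRingHom {R B : Type*} [CommSemiring R] [Semiring B] [Algebra R B]
    {U V : Subalgebra R B} (h : U ≤ V) (t : U) :
    (((Subalgebra.inclusion h).toRingHom t : V) : B) = (t : B) := rfl

theorem coe_inclFull (t : CuspForm.heckeAlgebra N 2 (↑S : Set ℕ)) :
    ((inclFull S t : HFull N) : Module.End ℂ (CuspForm (CongruenceSubgroup.Gamma0 N) 2)) =
      (t : Module.End ℂ (CuspForm (CongruenceSubgroup.Gamma0 N) 2)) :=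
  coe_inclusion_toRingHom (CuspForm.heckeAlgebra_mono (Set.empty_subset _)) t

theorem latRep_inclFull (t : CuspForm.heckeAlgebra N 2 (↑S : Set ℕ)) :
    latRep N (↑S : Set ℕ) t = latRep N (∅ : Set ℕ) (inclFull S t) := by
  refine (compat_latRep N (↑S : Set ℕ) t).right_unique ?_
  rw [← coe_inclFull]
  exact compat_latRep N (∅ : Set ℕ) (inclFull S t)

/-- The lattice forgets the operators. -/
def latForget : LatMod N (↑S : Set ℕ) →+ LatMod N (∅ : Set ℕ) :=
  ((LatMod.val N (∅ : Set ℕ)).symm.toAddMonoidHom).comp (LatMod.val N (↑S : Set ℕ)).toAddMonoidHom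

theorem val_latForget (x : LatMod N (↑S : Set ℕ)) :
    LatMod.val N (∅ : Set ℕ) (latForget N S x) = LatMod.val N (↑S : Set ℕ) x :=
  (LatMod.val N (∅ : Set ℕ)).apply_symm_apply _

theorem latForget_smul (t : CuspForm.heckeAlgebra N 2 (↑S : Set ℕ)) (x : LatMod N (↑S : Set ℕ)) :
    latForget N S (t • x) = inclFull S t • latForget N S x := by
  refine (LatMod.val N (∅ : Set ℕ)).injective ?_
  rw [val_latForget, LatMod.val_smul, LatMod.val_smul, val_latForget, latRep_inclFull]

/-- The lattice modulo `n` forgets the operators. -/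
def toFull : ModN N (↑S : Set ℕ) n →+ ModN N (∅ : Set ℕ) n :=
  QuotientAddGroup.map _ _ (latForget N S) fun x hx =>
    show latForget N S x ∈ nMultiples N (∅ : Set ℕ) n from (mem_nMultiples N (∅ : Set ℕ)).2 (by
    obtain ⟨y, hy⟩ := (mem_nMultiples N (↑S : Set ℕ)).1 hx
    exact ⟨latForget N S y, by rw [← map_nsmul, hy]⟩)

theorem toFull_mk (x : LatMod N (↑S : Set ℕ)) :
    toFull N S n (Submodule.Quotient.mk x) = Submodule.Quotient.mk (latForget N S x) := rfl

theorem toTors_toFull (x : ModN N (↑S : Set ℕ) n) :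
    toTors N (∅ : Set ℕ) n (toFull N S n x) = toTors N (↑S : Set ℕ) n x := by
  obtain ⟨x, rfl⟩ := Submodule.Quotient.mk_surjective _ x
  rw [toFull_mk, toTors_mk, toTors_mk]
  exact congrArg (fun φ => (tors (lvlGamma0 N) Qb n).subtype (latTors (lvlGamma0 N) Qb n φ))
    (val_latForget N S x)

theorem toFull_smul (t : CuspForm.heckeAlgebra N 2 (↑S : Set ℕ)) (x : ModN N (↑S : Set ℕ) n) :
    toFull N S n (t • x) = inclFull S t • toFull N S n x := by
  obtain ⟨x, rfl⟩ := Submodule.Quotient.mk_surjective _ x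
  rw [← Submodule.Quotient.mk_smul, toFull_mk, toFull_mk, latForget_smul, Submodule.Quotient.mk_smul]

end Full

variable {M : ℕ} [NeZero M] {q : ℕ} [hq : Fact q.Prime] [hq0 : NeZero q] {A : ValuationSubring Qb}
  [IsAlgClosed (IsLocalRing.ResidueField A)] [CharP (IsLocalRing.ResidueField A) q]
  {hπ0 : ∀ a : A, IsLocalRing.residue A a = 0 ↔ A.valuation a < 1} {hqM : ¬ q ∣ M}
  {harch : ∀ c : Qb, c ≠ 0 → ∃ m : ℕ, A.valuation ((q : Qb) ^ m) < A.valuation c}
  (D : FibreData M q A (IsLocalRing.residue A) IsLocalRing.residue_surjective hπ0 hqM harch)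
  {B : Finset ℕ} (hqB : q ∈ B) {t : HFull (M * q) × HFull M}
  (ht : t ∈ pairRing (M * q) M (dvd_mul_right M q) B) (ht2 : t.2 = 0)

include hqB ht ht2 in
/-- The square of a Frobenius element moves the killed classes inside the connected part. -/
theorem FibreData.frob_sq_sub_mem {σ : GQ}
    (hσ : InducesOn Qb (IsLocalRing.residue A) σ (frobenius (IsLocalRing.ResidueField A) q)) (e : ℕ)
    (z : ModN (M * q) (∅ : Set ℕ) (q ^ e)) :
    torsCls M q q e (galMod (M * q) (∅ : Set ℕ) (q ^ e) σ
        (galMod (M * q) (∅ : Set ℕ) (q ^ e) σ (t.1 • z))) - torsCls M q q e (t.1 • z) ∈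
      D.X.toricKer (isFunctionField_level Qb (M * q)) (q ^ e) := by
  set k := IsLocalRing.ResidueField A
  set g := galMod (M * q) (∅ : Set ℕ) (q ^ e) σ
  let R : ModN (M * q) (∅ : Set ℕ) (q ^ e) →+
      RedTarget k (modularFunctionFieldFullC k M) (q ^ e) :=
    (redTorZero M q A (IsLocalRing.residue A) IsLocalRing.residue_surjective hπ0 hqM harch
      (q ^ e)).comp (torsCls M q q e)
  have hU : ∀ y, R (g y) = R (uQ M q • y) := fun y => by
    show redTorZero M q A _ _ hπ0 hqM harch (q ^ e) (torsCls M q q e _) =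
      redTorZero M q A _ _ hπ0 hqM harch (q ^ e) (torsCls M q q e _)
    rw [torsCls_galMod]
    exact (redTorZero_hecke_eq_gal M q A _ _ hπ0 hqM harch (q ^ e) hσ _ _ (toTors_uQ M q q e y)).symm
  have hUU : ∀ w, R (g (g (t.1 • w))) = R (t.1 • w) := fun w => by
    rw [hU, ← map_smul g, hU, smul_smul, smul_smul, uQ_sq_mul M q hqM q hqB ht ht2]
  have h0 : R (g (g (t.1 • z)) - t.1 • z) = 0 := by
    rw [map_sub, hUU]
    exact sub_self (G := RedTarget k (modularFunctionFieldFullC k M) (q ^ e)) _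
  let Ri : ModN (M * q) (∅ : Set ℕ) (q ^ e) →+
      RedTarget k (modularFunctionFieldFullC k M) (q ^ e) :=
    (redTorInf M q A (IsLocalRing.residue A) IsLocalRing.residue_surjective hπ0 hqM harch
      (q ^ e)).comp (torsCls M q q e)
  have hinf : ∀ w, Ri (t.1 • w) = - R (uQ M q • t.1 • w) := fun w =>
    redTorInf_torsCls M q A _ _ hπ0 hqM harch q hqB ht ht2 e w
  have hc : g (g (t.1 • z)) = t.1 • g (g z) :=
    (congrArg g (map_smul g t.1 z)).trans (map_smul g t.1 (g z))
  have hd : uQ M q • t.1 • g (g z) = g (g (t.1 • (uQ M q • z))) := by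
    rw [map_smul g t.1 (uQ M q • z), map_smul g t.1, map_smul g (uQ M q), map_smul g (uQ M q)]
    exact smul_comm _ _ _
  have h1 : Ri (g (g (t.1 • z)) - t.1 • z) = 0 := by
    rw [map_sub, hc, hinf, hinf, hd, hUU, smul_comm (uQ M q) t.1 z]
    exact sub_self (G := RedTarget k (modularFunctionFieldFullC k M) (q ^ e)) _
  rw [← map_sub]
  refine (SemiFibre.mem_toricKer _).2 fun i => ?_
  fin_cases i
  · exact (redTor_congr_red D.C_inf _ _ _ (scaled_cInf M q A _ _ hπ0 hqM harch) _).trans h1
  · exact (redTor_congr_red D.C_zero _ _ _ (scaled_cZero M q A _ _ hπ0 hqM harch) _).trans h0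

variable {S : Finset ℕ} {h : CuspForm.heckeAlgebra (M * q) 2 (↑S : Set ℕ)}
  (hh : inclFull S h = t.1)

include hqB ht ht2 hh in
/-- The square of a Frobenius element moves the image of the operator inside the connected part. -/
theorem FibreData.frob_sq_opImage {σ : GQ}
    (hσ : InducesOn Qb (IsLocalRing.residue A) σ (frobenius (IsLocalRing.ResidueField A) q)) (e : ℕ)
    (y : ModN (M * q) (↑S : Set ℕ) (q ^ e)) (hy : y ∈ opImage (M * q) (↑S : Set ℕ) (q ^ e) h) :
    torsMod (M * q) (↑S : Set ℕ) (q ^ e) (galMod (M * q) (↑S : Set ℕ) (q ^ e) σ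
        (galMod (M * q) (↑S : Set ℕ) (q ^ e) σ y)) - torsMod (M * q) (↑S : Set ℕ) (q ^ e) y ∈
      D.X.toricKer (isFunctionField_level Qb (M * q)) (q ^ e) := by
  obtain ⟨z, hz⟩ := hy
  have key := D.frob_sq_sub_mem hqB ht ht2 hσ e (toFull (M * q) S (q ^ e) z)
  have e1 : ∀ w : ModN (M * q) (↑S : Set ℕ) (q ^ e),
      torsMod (M * q) (↑S : Set ℕ) (q ^ e) w = torsCls M q q e (toFull (M * q) S (q ^ e) w) :=
    fun w => Subtype.ext (toTors_toFull (M * q) S (q ^ e) w).symm
  have e2 : toFull (M * q) S (q ^ e) y = t.1 • toFull (M * q) S (q ^ e) z := by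
    rw [← hz, LinearMap.smul_apply, LinearMap.id_apply, toFull_smul, hh]
  have e3 : ∀ w, toFull (M * q) S (q ^ e) (galMod (M * q) (↑S : Set ℕ) (q ^ e) σ w) =
      galMod (M * q) (∅ : Set ℕ) (q ^ e) σ (toFull (M * q) S (q ^ e) w) := fun w =>
    toTors_injective (M * q) (∅ : Set ℕ) (q ^ e) (by
      rw [toTors_toFull, toTors_galMod, toTors_galMod, toTors_toFull])
  rw [e1, e1, e3, e3, e2]
  exact key

include D hqB ht ht2 hh in
/-- **The image of an operator killed at level `M` has a part with the squares.** -/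
theorem FibreData.hasStrictPart (hA : A.LiesOverPrime q) (e : ℕ) [NeZero (q ^ e)]
    [Fintype (opImage (M * q) (↑S : Set ℕ) (q ^ e) h)] :
    HasPart (strictSet A) A (opImage (M * q) (↑S : Set ℕ) (q ^ e) h)
      fun σ x => galImage (M * q) (↑S : Set ℕ) (q ^ e) h σ x := by
  classical
  let P := opImage (M * q) (↑S : Set ℕ) (q ^ e) h
  let g := galMod (M * q) (↑S : Set ℕ) (q ^ e)
  let tm : P →+ Pic0.torsion Qb (levelField (M * q) Qb) (q ^ e) :=
    (torsMod (M * q) (↑S : Set ℕ) (q ^ e)).comp P.toAddSubgroup.subtype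
  have htm : ∀ σ (x : P), tm (galImage (M * q) (↑S : Set ℕ) (q ^ e) h σ x) =
      galAut (M * q) Qb σ • tm x := fun σ x => torsMod_galMod (M * q) (↑S : Set ℕ) (q ^ e) σ x.1
  set W := (D.X.toricKer (isFunctionField_level Qb (M * q)) (q ^ e)).comap tm
  letI : Fintype W := Fintype.ofFinite W
  have hDW : ∀ δ ∈ A.decompositionSubgroup ℚ, ∀ x ∈ W,
      galImage (M * q) (↑S : Set ℕ) (q ^ e) h δ x ∈ W := fun δ hδ x hx => by
    show tm _ ∈ D.X.toricKer (isFunctionField_level Qb (M * q)) (q ^ e)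
    rw [htm]
    exact D.smul_mem_toricKer_decomposition _ hδ hx
  have hIW : ∀ σ ∈ A.inertiaSubgroupIn ℚ, ∀ x,
      galImage (M * q) (↑S : Set ℕ) (q ^ e) h σ x - x ∈ W := fun σ hσ x => by
    show tm _ ∈ D.X.toricKer (isFunctionField_level Qb (M * q)) (q ^ e)
    rw [map_sub, htm]
    exact D.smul_sub_mem_toricKer_inertia _ hσ _
  refine HasPart.mk' W hDW ?_ fun actW hact => ?_
  · rintro σ (hσ | ⟨δ, hδ, rfl⟩) x
    · exact hIW σ hσ x
    · obtain ⟨F, hF⟩ := FA.Deform.exists_isFrobeniusAt hq.out hA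
      obtain ⟨E, hE, hfix⟩ := exists_field_galMod (M * q) (↑S : Set ℕ) (q ^ e)
      obtain ⟨i, ι, hι, η, hη, rfl⟩ :=
        FA.TW.exists_frobenius_decomp hq.out hA hF E.fixingSubgroup E.fixingSubgroup_isOpen hδ
      refine sq_sub_mem (galImage (M * q) (↑S : Set ℕ) (q ^ e) h) W
        (hDW F hF.mem_decompositionSubgroup) (fun y => ?_) i (hIW ι hι) ?_ x
      · show tm _ ∈ D.X.toricKer (isFunctionField_level Qb (M * q)) (q ^ e)
        rw [map_sub]
        exact D.frob_sq_opImage hqB ht ht2 hh (inducesOn_frobenius hF) e y.1 y.2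
      · exact LinearMap.ext fun w => Subtype.ext (LinearMap.congr_fun
          (hfix η ((IntermediateField.mem_fixingSubgroup_iff _ _).1 hη))
          (w : ModN (M * q) (↑S : Set ℕ) (q ^ e)))
  · refine D.hasConnModel hA e
      ((toTors (M * q) (↑S : Set ℕ) (q ^ e)).comp (P.toAddSubgroup.subtype.comp W.subtype))
      (fun x y hxy => Subtype.ext (Subtype.ext (toTors_injective _ _ _ hxy)))
      (fun x => ⟨⟨_, x.2⟩, rfl⟩) actW fun σ hσ x => ?_
    show toTors _ _ _ ((actW σ x : P) : ModN (M * q) (↑S : Set ℕ) (q ^ e)) =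
      σ • toTors _ _ _ ((x : P) : ModN (M * q) (↑S : Set ℕ) (q ^ e))
    exact (congrArg (toTors (M * q) (↑S : Set ℕ) (q ^ e))
      (congrArg Subtype.val (hact σ hσ x))).trans
      (toTors_galMod (M * q) (↑S : Set ℕ) (q ^ e) σ _)

end FA.ModField
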